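import Mathlib
import Fermat.Agent.LT.T7.H566.SchurGlobal

/-!
# Row LT, tower T7, leaf T7.L2.3.5.4.4 `SD534.ProjBasisC` -- the Mathlib-only core (helper582)

OFF-MAIN.  Mathlib + the Mathlib-only files of helper566 (`T7/H566/Schur{Core,Class,Global}.lean`:
`IsHermOn566`, `parseval_class566`, `proj_form_eq566`, `finrank_span_orth566`,
`form_class_orth566`, `hasSum_regroup566`), byte-identical copies.

`projBasis_core582` is the statement of `SD534.ProjBasisC` with the class spans written out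
(`cSpan566` is an abbreviation of the body of `SD534.clsSpan`).
-/

set_option autoImplicit false
set_option linter.style.haveILetI false

open Module
open scoped ComplexConjugate

noncomputable section

namespace Fermat.Agent.LT.T7.H582

open Fermat.Agent.LT.T7.H566

section Basic

variable {M : Type} [AddCommGroup M] [Module ℂ M]

theorem form_sub_left582 {form : M → M → ℂ} {E : Submodule ℂ M} (h : IsHermOn566 form E)
    {x y z : M} (hx : x ∈ E) (hy : y ∈ E) (hz : z ∈ E) :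
    form (x - y) z = form x z - form y z := by
  have h1 : x - y = x + (-1 : ℂ) • y := by rw [neg_one_smul, sub_eq_add_neg]
  rw [h1, h.add_left x hx _ (E.smul_mem _ hy) z hz, h.smul_left (-1) y hy z hz]
  ring

/-- An orthonormal basis of a finite dimensional space with a definite hermitian form. -/
theorem exists_onb582 (form : M → M → ℂ) (E : Submodule ℂ M) (h : IsHermOn566 form E)
    [FiniteDimensional ℂ E] :
    ∃ u : Fin (finrank ℂ E) → M, (∀ i, u i ∈ E) ∧ (∀ i, form (u i) (u i) = 1) ∧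
      (∀ i j, i ≠ j → form (u i) (u j) = 0) ∧
      ∀ x ∈ E, x ∈ Submodule.span ℂ (Set.range u) := by
  classical
  letI iN : NormedAddCommGroup E := formNormed566 form E h
  letI iI : InnerProductSpace ℂ E := formInner566 form E h
  have hinner : ∀ x y : E, inner ℂ x y = form (y : M) (x : M) := fun x y => rfl
  let b := stdOrthonormalBasis ℂ E
  refine ⟨fun i => ((b i : E) : M), fun i => (b i).2, ?_, ?_, ?_⟩
  · intro i
    have h2 := orthonormal_iff_ite.1 b.orthonormal i i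
    rw [if_pos rfl, hinner] at h2
    exact h2
  · intro i j hij
    have h2 := orthonormal_iff_ite.1 b.orthonormal j i
    rw [if_neg (Ne.symm hij), hinner] at h2
    exact h2
  · intro x hx
    have h2 := b.sum_repr' ⟨x, hx⟩
    have h3 : x = ∑ i, (inner ℂ (b i) (⟨x, hx⟩ : E)) • ((b i : E) : M) := by
      have h4 := congrArg (fun y : E => (y : M)) h2
      simp only [Submodule.coe_sum, Submodule.coe_smul] at h4
      exact h4.symm
    rw [h3]
    exact Submodule.sum_mem _ fun i _ => Submodule.smul_mem _ _ (Submodule.subset_span ⟨i, rfl⟩)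

end Basic

section Class

variable {M : Type} [AddCommGroup M] [Module ℂ M] {form : M → M → ℂ} {V : Submodule ℂ M}

/-- The class span is the span of the members of the class, indexed by a finset. -/
theorem cSpan_eq_range582 {A : Type} (v : ℕ → M) (J₀ : Set ℕ) (cl₀ : ℕ → A) (a : A)
    (C : Finset ℕ) (hC : ∀ j, j ∈ C ↔ j ∈ J₀ ∧ cl₀ j = a) :
    cSpan566 v J₀ cl₀ a = Submodule.span ℂ (Set.range (fun i : C => v i)) := by
  have hset : {f : M | ∃ j : ℕ, j ∈ J₀ ∧ cl₀ j = a ∧ f = v j}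
      = Set.range (fun i : C => v i) := by
    ext f
    constructor
    · rintro ⟨j, hj, hcj, rfl⟩
      exact ⟨⟨j, (hC j).2 ⟨hj, hcj⟩⟩, rfl⟩
    · rintro ⟨⟨j, hj⟩, rfl⟩
      exact ⟨j, ((hC j).1 hj).1, ((hC j).1 hj).2, rfl⟩
  show Submodule.span ℂ {f : M | ∃ j : ℕ, j ∈ J₀ ∧ cl₀ j = a ∧ f = v j} = _
  rw [hset]

/-- The facts on one class: dimension, the projection, Parseval. -/
theorem class_facts582 (h : IsHermOn566 form V) (v : ℕ → M) (C : Finset ℕ)
    (hvV : ∀ j ∈ C, v j ∈ V) (h1 : ∀ j ∈ C, form (v j) (v j) = 1)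
    (h0 : ∀ i ∈ C, ∀ j ∈ C, i ≠ j → form (v i) (v j) = 0) :
    finrank ℂ (Submodule.span ℂ (Set.range (fun i : C => v i))) = C.card ∧
    ∀ χ ∈ V,
      (∑ i ∈ C, form χ (v i) • v i) ∈ Submodule.span ℂ (Set.range (fun i : C => v i)) ∧
      (∀ y ∈ Submodule.span ℂ (Set.range (fun i : C => v i)),
        form χ y = form (∑ i ∈ C, form χ (v i) • v i) y) ∧
      ∑ i ∈ C, ‖form χ (v i)‖ ^ 2
        = (form (∑ i ∈ C, form χ (v i) • v i) (∑ i ∈ C, form χ (v i) • v i)).re := by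
  classical
  set u : C → M := fun i => v i with hu_def
  have hu : ∀ i, u i ∈ V := fun i => hvV i i.2
  have h1' : ∀ i, form (u i) (u i) = 1 := fun i => h1 i i.2
  have h0' : ∀ i j, i ≠ j → form (u i) (u j) = 0 := fun i j hij =>
    h0 i i.2 j j.2 (fun hij' => hij (Subtype.ext hij'))
  have hfr := finrank_span_orth566 form h u hu h1' h0'
  rw [Fintype.card_coe] at hfr
  refine ⟨hfr, fun χ hχ => ?_⟩
  have hsum : (∑ i : C, form χ (u i) • u i) = ∑ i ∈ C, form χ (v i) • v i :=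
    Finset.sum_coe_sort C (fun j => form χ (v j) • v j)
  have hproj := proj_form_eq566 form h u hu h1' h0' χ hχ
  rw [hsum] at hproj
  have hle : Submodule.span ℂ (Set.range u) ≤ V := by
    rw [Submodule.span_le]
    rintro _ ⟨i, rfl⟩
    exact hu i
  have huE : ∀ i, u i ∈ Submodule.span ℂ (Set.range u) := fun i =>
    Submodule.subset_span ⟨i, rfl⟩
  have hpE : (∑ i ∈ C, form χ (v i) • v i) ∈ Submodule.span ℂ (Set.range u) :=
    Submodule.sum_mem _ fun i hi => Submodule.smul_mem _ _ (huE ⟨i, hi⟩)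
  refine ⟨hpE, hproj, ?_⟩
  haveI hfin : FiniteDimensional ℂ (Submodule.span ℂ (Set.range u)) :=
    FiniteDimensional.span_of_finite ℂ (Set.finite_range u)
  have hcard : Fintype.card C = finrank ℂ (Submodule.span ℂ (Set.range u)) := by
    rw [hfr, Fintype.card_coe]
  have hP := parseval_class566 form _ (h.mono hle) u huE h1' h0' hcard _ hpE
  rw [← hP, ← Finset.sum_coe_sort C (fun j => ‖form χ (v j)‖ ^ 2)]
  refine Finset.sum_congr rfl fun i _ => ?_
  rw [hproj (u i) (huE i)]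

/-- A projector onto `W` which represents the form on `W` is the identity on `W` and
symmetric. -/
theorem proj_facts582 (h : IsHermOn566 form V) {W : Submodule ℂ M} (hWV : W ≤ V) (P : M → M)
    (hPW : ∀ x ∈ V, P x ∈ W) (hPin : ∀ x ∈ V, ∀ χ ∈ W, form (P x) χ = form x χ) :
    (∀ χ ∈ W, P χ = χ) ∧ ∀ x ∈ V, ∀ y ∈ V, form (P x) y = form x (P y) := by
  constructor
  · intro χ hχ
    have hPχ := hPW χ (hWV hχ)
    have hz : P χ - χ ∈ W := W.sub_mem hPχ hχ
    have h1 : form (P χ - χ) (P χ - χ) = 0 := by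
      rw [form_sub_left582 h (hWV hPχ) (hWV hχ) (hWV hz), hPin χ (hWV hχ) _ hz, sub_self]
    exact sub_eq_zero.1 (h.definite _ (hWV hz) h1)
  · intro x hx y hy
    have hPx := hPW x hx
    have hPy := hPW y hy
    have e1 : form (P x) (P y) = form x (P y) := hPin x hx _ hPy
    have e2 : form (P y) (P x) = form y (P x) := hPin y hy _ hPx
    have e3 : form (P x) (P y) = form (P x) y := by
      rw [h.conj_symm (P y) (hWV hPy) (P x) (hWV hPx), e2,
        ← h.conj_symm y hy (P x) (hWV hPx)]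
    rw [← e3, e1]

/-- The component of a member of `W` in a `P`-stable subspace `E` lies in `W`. -/
theorem proj_comp_mem582 (h : IsHermOn566 form V) {W : Submodule ℂ M} (hWV : W ≤ V)
    (P : M → M) (hPW : ∀ x ∈ V, P x ∈ W)
    (hPin : ∀ x ∈ V, ∀ χ ∈ W, form (P x) χ = form x χ)
    (E : Submodule ℂ M) (hEV : E ≤ V) (hPE : ∀ x ∈ E, P x ∈ E)
    (χ p : M) (hχ : χ ∈ W) (hp : p ∈ E) (hproj : ∀ y ∈ E, form χ y = form p y) : p ∈ W := by
  obtain ⟨hid, hsym⟩ := proj_facts582 h hWV P hPW hPin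
  have hz : P p - p ∈ E := E.sub_mem (hPE p hp) hp
  have key : ∀ y ∈ E, form (P p) y = form p y := by
    intro y hy
    rw [hsym p (hEV hp) y (hEV hy), ← hproj (P y) (hPE y hy), ← hsym χ (hWV hχ) y (hEV hy),
      hid χ hχ, hproj y hy]
  have h1 : form (P p - p) (P p - p) = 0 := by
    rw [form_sub_left582 h (hEV (hPE p hp)) (hEV hp) (hEV hz), key _ hz, sub_self]
  have h2 := sub_eq_zero.1 (h.definite _ (hEV hz) h1)
  rw [← h2]
  exact hPW p (hEV hp)

end Class

section Main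

variable {M : Type} [AddCommGroup M] [Module ℂ M]

/-- **PROJ-BASIS** (the statement of `SD534.ProjBasisC`, class spans written out). -/
theorem projBasis_core582 (form : M → M → ℂ) (V W : Submodule ℂ M)
    (A : Type) (v : ℕ → M) (J₀ : Set ℕ) (cl₀ : ℕ → A) (P : M → M)
    (hWV : W ≤ V)
    (hadd : ∀ x ∈ V, ∀ y ∈ V, ∀ z ∈ V, form (x + y) z = form x z + form y z)
    (hsmul : ∀ (a : ℂ), ∀ x ∈ V, ∀ y ∈ V, form (a • x) y = a * form x y)
    (hconj : ∀ x ∈ V, ∀ y ∈ V, form y x = conj (form x y))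
    (hnn : ∀ x ∈ V, 0 ≤ (form x x).re)
    (hdef : ∀ x ∈ V, form x x = 0 → x = 0)
    (hvV : ∀ j ∈ J₀, v j ∈ V)
    (hv1 : ∀ j ∈ J₀, form (v j) (v j) = 1)
    (hv0 : ∀ i ∈ J₀, ∀ j ∈ J₀, i ≠ j → form (v i) (v j) = 0)
    (hpars : ∀ ψ ∈ V, HasSum (fun j : J₀ => ‖form ψ (v j)‖ ^ 2) (form ψ ψ).re)
    (hfin : ∀ j₀ ∈ J₀, {j : ℕ | j ∈ J₀ ∧ cl₀ j = cl₀ j₀}.Finite)
    (hPadd : ∀ x y : M, P (x + y) = P x + P y)
    (hPsmul : ∀ (a : ℂ) (x : M), P (a • x) = a • P x)
    (hPW : ∀ x ∈ V, P x ∈ W)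
    (hPin : ∀ x ∈ V, ∀ χ ∈ W, form (P x) χ = form x χ)
    (hPE : ∀ a : A, ∀ x ∈ cSpan566 v J₀ cl₀ a, P x ∈ cSpan566 v J₀ cl₀ a) :
    ∃ (w : ℕ → M) (J : Set ℕ) (cl : ℕ → A),
      (∀ j ∈ J, w j ∈ W ∧ w j ∈ cSpan566 v J₀ cl₀ (cl j)) ∧
      (∀ j ∈ J, ∃ j₀ ∈ J₀, cl₀ j₀ = cl j) ∧
      (∀ j ∈ J, form (w j) (w j) = 1) ∧
      (∀ i ∈ J, ∀ j ∈ J, i ≠ j → form (w i) (w j) = 0) ∧
      (∀ χ ∈ W, HasSum (fun j : J => ‖form χ (w j)‖ ^ 2) (form χ χ).re) ∧
      (∀ j₁ ∈ J, {j : ℕ | j ∈ J ∧ cl j = cl j₁}.Finite) ∧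
      ∀ a : A, ∀ x ∈ W, x ∈ cSpan566 v J₀ cl₀ a → x ∈ cSpan566 w J cl a := by
  classical
  have h : IsHermOn566 form V := ⟨hadd, hsmul, hconj, hnn, hdef⟩
  -- the classes as finsets
  have hCfin : ∀ a : A, {j : ℕ | j ∈ J₀ ∧ cl₀ j = a}.Finite := by
    intro a
    by_cases hne : ∃ j₀, j₀ ∈ J₀ ∧ cl₀ j₀ = a
    · obtain ⟨j₀, hj₀, rfl⟩ := hne
      exact hfin j₀ hj₀
    · have hemp : {j : ℕ | j ∈ J₀ ∧ cl₀ j = a} = ∅ := by
        ext j
        constructor
        · intro hj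
          exact (hne ⟨j, hj⟩).elim
        · intro hj
          exact hj.elim
      rw [hemp]
      exact Set.finite_empty
  set C : A → Finset ℕ := fun a => (hCfin a).toFinset with hC_def
  have hC : ∀ a j, j ∈ C a ↔ j ∈ J₀ ∧ cl₀ j = a := fun a j => by
    rw [hC_def]
    exact (hCfin a).mem_toFinset
  set Er : A → Submodule ℂ M := fun a => Submodule.span ℂ (Set.range (fun i : C a => v i))
    with hEr_def
  have hEr : ∀ a, cSpan566 v J₀ cl₀ a = Er a := fun a =>
    cSpan_eq_range582 v J₀ cl₀ a (C a) (hC a)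
  have hErV : ∀ a, Er a ≤ V := fun a => by
    rw [← hEr a]
    exact cSpan_le566 v J₀ cl₀ V hvV a
  have hErfd : ∀ a, FiniteDimensional ℂ (Er a) := fun a =>
    FiniteDimensional.span_of_finite ℂ (Set.finite_range _)
  have hcf : ∀ a, finrank ℂ (Er a) = (C a).card ∧
      ∀ χ ∈ V,
        (∑ i ∈ C a, form χ (v i) • v i) ∈ Er a ∧
        (∀ y ∈ Er a, form χ y = form (∑ i ∈ C a, form χ (v i) • v i) y) ∧
        ∑ i ∈ C a, ‖form χ (v i)‖ ^ 2
          = (form (∑ i ∈ C a, form χ (v i) • v i) (∑ i ∈ C a, form χ (v i) • v i)).re :=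
    fun a => class_facts582 h v (C a) (fun j hj => hvV j ((hC a j).1 hj).1)
      (fun j hj => hv1 j ((hC a j).1 hj).1)
      (fun i hi j hj hij => hv0 i ((hC a i).1 hi).1 j ((hC a j).1 hj).1 hij)
  have hPEr : ∀ a, ∀ x ∈ Er a, P x ∈ Er a := fun a x hx => by
    rw [← hEr a] at hx ⊢
    exact hPE a x hx
  -- the spaces `W ∩ E a`
  have hWa : ∀ a, IsHermOn566 form (W ⊓ Er a) := fun a => h.mono (inf_le_left.trans hWV)
  have hWafd : ∀ a, FiniteDimensional ℂ ↥(W ⊓ Er a) := fun a => by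
    haveI := hErfd a
    infer_instance
  have hd : ∀ a, finrank ℂ ↥(W ⊓ Er a) ≤ (C a).card := fun a => by
    haveI := hErfd a
    rw [← (hcf a).1]
    exact Submodule.finrank_mono inf_le_right
  have hex : ∀ a, ∃ u : Fin (finrank ℂ ↥(W ⊓ Er a)) → M, (∀ i, u i ∈ W ⊓ Er a) ∧
      (∀ i, form (u i) (u i) = 1) ∧ (∀ i j, i ≠ j → form (u i) (u j) = 0) ∧
      ∀ x ∈ W ⊓ Er a, x ∈ Submodule.span ℂ (Set.range u) := fun a => by
    haveI := hWafd a
    exact exists_onb582 form (W ⊓ Er a) (hWa a)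
  choose u hu_mem hu1 hu0 hu_span using hex
  -- the indices
  set e : (a : A) → Fin (finrank ℂ ↥(W ⊓ Er a)) → ℕ := fun a i =>
    (C a).orderEmbOfFin rfl (Fin.castLE (hd a) i) with he_def
  have he_inj : ∀ a, Function.Injective (e a) := fun a i i' hii' => by
    have h1 := ((C a).orderEmbOfFin rfl).injective hii'
    exact Fin.castLE_injective (hd a) h1
  have he_mem : ∀ a i, e a i ∈ C a := fun a i =>
    Finset.orderEmbOfFin_mem (C a) rfl _
  set wa : A → ℕ → M := fun a j =>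
    if hj : ∃ i : Fin (finrank ℂ ↥(W ⊓ Er a)), e a i = j then u a (Classical.choose hj) else 0
    with hwa_def
  have hwa : ∀ a i, wa a (e a i) = u a i := fun a i => by
    have hj : ∃ i' : Fin (finrank ℂ ↥(W ⊓ Er a)), e a i' = e a i := ⟨i, rfl⟩
    have h1 : wa a (e a i) = u a (Classical.choose hj) := dif_pos hj
    rw [h1, he_inj a (Classical.choose_spec hj)]
  set w : ℕ → M := fun j => wa (cl₀ j) j with hw_def
  set J : Set ℕ := {j | j ∈ J₀ ∧ ∃ i : Fin (finrank ℂ ↥(W ⊓ Er (cl₀ j))), e (cl₀ j) i = j}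
    with hJ_def
  -- the two key facts
  have K1 : ∀ a (i : Fin (finrank ℂ ↥(W ⊓ Er a))),
      e a i ∈ J₀ ∧ cl₀ (e a i) = a ∧ e a i ∈ J ∧ w (e a i) = u a i := by
    intro a i
    obtain ⟨hj0, hcl⟩ := (hC a (e a i)).1 (he_mem a i)
    refine ⟨hj0, hcl, ?_, ?_⟩
    · refine ⟨hj0, ?_⟩
      generalize hjj : e a i = j at hcl
      subst hcl
      exact ⟨i, hjj⟩
    · show wa (cl₀ (e a i)) (e a i) = u a i
      generalize hjj : e a i = j at hcl
      subst hcl
      have h3 := hwa (cl₀ j) i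
      rw [hjj] at h3
      exact h3
  have K2 : ∀ j ∈ J, ∀ a, cl₀ j = a →
      ∃ k : Fin (finrank ℂ ↥(W ⊓ Er a)), e a k = j ∧ w j = u a k := by
    intro j hj a ha
    subst ha
    obtain ⟨k, hk⟩ := hj.2
    refine ⟨k, hk, ?_⟩
    have := (K1 (cl₀ j) k).2.2.2
    rw [hk] at this
    exact this
  refine ⟨w, J, cl₀, ?_, ?_, ?_, ?_, ?_, ?_, ?_⟩
  · -- members
    intro j hj
    obtain ⟨k, -, hw⟩ := K2 j hj _ rfl
    have hm := hu_mem (cl₀ j) k
    rw [← hw] at hm
    refine ⟨hm.1, ?_⟩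
    rw [hEr (cl₀ j)]
    exact hm.2
  · -- classes
    intro j hj
    exact ⟨j, hj.1, rfl⟩
  · -- norm one
    intro j hj
    obtain ⟨k, -, hw⟩ := K2 j hj _ rfl
    rw [hw]
    exact hu1 _ k
  · -- orthogonality
    intro i hi j hj hij
    by_cases hcl : cl₀ j = cl₀ i
    · obtain ⟨k, hk, hwi⟩ := K2 i hi _ rfl
      obtain ⟨k', hk', hwj⟩ := K2 j hj _ hcl
      rw [hwi, hwj]
      refine hu0 _ k k' ?_
      intro hkk
      apply hij
      rw [← hk, ← hk', hkk]
    · obtain ⟨k, -, hwi⟩ := K2 i hi _ rfl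
      obtain ⟨k', -, hwj⟩ := K2 j hj _ rfl
      have hx : w i ∈ cSpan566 v J₀ cl₀ (cl₀ i) := by
        rw [hwi, hEr]
        exact (hu_mem _ k).2
      have hy : w j ∈ cSpan566 v J₀ cl₀ (cl₀ j) := by
        rw [hwj, hEr]
        exact (hu_mem _ k').2
      exact form_class_orth566 h v J₀ cl₀ hvV hv0 (fun hh => hcl hh.symm) hx hy
  · -- Parseval
    intro χ hχ
    have hχV := hWV hχ
    set g : ℕ → ℝ := J₀.indicator (fun j => ‖form χ (v j)‖ ^ 2) with hg_def
    set hh : ℕ → ℝ := J.indicator (fun j => ‖form χ (w j)‖ ^ 2) with hh_def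
    have hg : HasSum g (form χ χ).re := by
      have h1 := hpars χ hχV
      exact (hasSum_subtype_iff_indicator (f := fun j : ℕ => ‖form χ (v j)‖ ^ 2)).1 h1
    have hJJ : ∀ j, j ∈ J → j ∈ J₀ := fun j hj => hj.1
    have key := hasSum_regroup566 g hh
      (fun j => Set.indicator_nonneg (fun _ _ => by positivity) j)
      (fun j => Set.indicator_nonneg (fun _ _ => by positivity) j) J₀
      (fun j hj => Set.indicator_of_notMem hj _)
      (fun j hj => Set.indicator_of_notMem (fun hjJ => hj (hJJ j hjJ)) _)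
      (fun j => C (cl₀ j))
      (fun j hj => (hC _ j).2 ⟨hj, rfl⟩)
      (fun j hj i hi => by
        obtain ⟨hi0, hicl⟩ := (hC _ i).1 hi
        exact ⟨hi0, by rw [hicl]⟩)
      ?_ (form χ χ).re hg
    · exact (hasSum_subtype_iff_indicator (f := fun j : ℕ => ‖form χ (w j)‖ ^ 2)).2 key
    · intro j₀ hj₀
      set a := cl₀ j₀ with ha_def
      obtain ⟨hpE, hproj, hparsC⟩ := (hcf a).2 χ hχV
      set p := ∑ i ∈ C a, form χ (v i) • v i with hp_def
      -- the left side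
      have hL : ∑ i ∈ C a, g i = (form p p).re := by
        rw [← hparsC]
        refine Finset.sum_congr rfl fun i hi => ?_
        exact Set.indicator_of_mem ((hC a i).1 hi).1 _
      -- `p ∈ W`
      have hpW : p ∈ W :=
        proj_comp_mem582 h hWV P hPW hPin (Er a) (hErV a) (hPEr a) χ p hχ hpE hproj
      have hpWa : p ∈ W ⊓ Er a := ⟨hpW, hpE⟩
      -- the right side
      have hR1 : ∑ i ∈ C a, hh i = ∑ k : Fin (finrank ℂ ↥(W ⊓ Er a)), ‖form χ (u a k)‖ ^ 2 := by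
        have hsub : (Finset.univ.image (e a)) ⊆ C a := by
          intro i hi
          obtain ⟨k, -, rfl⟩ := Finset.mem_image.1 hi
          exact he_mem a k
        rw [← Finset.sum_subset hsub, Finset.sum_image (fun k _ k' _ hkk => he_inj a hkk)]
        · refine Finset.sum_congr rfl fun k _ => ?_
          obtain ⟨-, -, hkJ, hwk⟩ := K1 a k
          rw [hh_def, Set.indicator_of_mem hkJ, hwk]
        · intro i hi hni
          refine Set.indicator_of_notMem ?_ _
          intro hiJ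
          obtain ⟨k, hk, -⟩ := K2 i hiJ a ((hC a i).1 hi).2
          exact hni (Finset.mem_image.2 ⟨k, Finset.mem_univ k, hk⟩)
      haveI := hWafd a
      have hR2 := parseval_class566 form (W ⊓ Er a) (hWa a) (u a) (hu_mem a) (hu1 a) (hu0 a)
        (Fintype.card_fin _) p hpWa
      rw [hL, hR1, ← hR2]
      refine Finset.sum_congr rfl fun k _ => ?_
      rw [hproj (u a k) (hu_mem a k).2]
  · -- finite classes
    intro j₁ hj₁
    refine (hCfin (cl₀ j₁)).subset ?_
    intro j hj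
    exact ⟨hj.1.1, hj.2⟩
  · -- exhaustion
    intro a x hxW hxE
    rw [hEr a] at hxE
    have hx := hu_span a x ⟨hxW, hxE⟩
    refine Submodule.span_mono ?_ hx
    rintro _ ⟨k, rfl⟩
    obtain ⟨-, hcl, hkJ, hwk⟩ := K1 a k
    exact ⟨e a k, hkJ, hcl, hwk.symm⟩

end Main

end Fermat.Agent.LT.T7.H582

end
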