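import Mathlib
import Fermat.Agent.LT.T7.H534.WBasisSpec
import Fermat.Agent.LT.T7.H582.ProjBasisCore

/-!
# Row LT, tower T7, leaf T7.L2.3.5.4.4 `SD534.ProjBasisC` (registry row 2357, helper582): PROVED

OFF-MAIN.  `projBasisC582 : SD534.ProjBasisC` VERBATIM vs `T7/H534/WBasisSpec.lean`
(sha256 c7027808d11f4314, helper534@f2b76c564), UNCONDITIONAL.  The proof is the Mathlib-only
core `projBasis_core582` (`ProjBasisCore.lean`); `SD534.clsSpan` and `H566.cSpan566` have the
same body.
-/

set_option autoImplicit false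

noncomputable section

namespace Fermat.Agent.LT.T7.H582

/-- **WB.4 PROJ-BASIS**, closed. -/
theorem projBasisC582 : Fermat.Agent.LT.T7.SD534.ProjBasisC := by
  intro M _ _ form V W A v J₀ cl₀ P hWV hadd hsmul hconj hnn hdef hvV hv1 hv0 hpars hfin hPadd
    hPsmul hPW hPin hPE
  exact projBasis_core582 form V W A v J₀ cl₀ P hWV hadd hsmul hconj hnn hdef hvV hv1 hv0 hpars
    hfin hPadd hPsmul hPW hPin hPE

end Fermat.Agent.LT.T7.H582

end
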