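import Mathlib
import Fermat.Agent.LT.T7.H340.FactUpSpec
import Fermat.Agent.LT.T7.H159.SplitIntL

/-!
# Row LT, tower T7, leaf C2.7.13.4 `LocEqArchC340` (helper582, registry row 2623), OFF-MAIN

PART 4: **the algebra at the infinite places**: in the `K`-coordinates the product of the
components of `δ r'^j` at the places over `v` is the component of `γ r^j` at `v`.
-/

set_option autoImplicit false

open AutomorphicForm IsDedekindDomain NumberField MeasureTheory
open scoped ComplexConjugate

noncomputable section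

namespace Fermat.Agent.LT.T7.H582

open Fermat.Agent.LT.H556 Fermat.Agent.LT.H556.A0 Fermat.Agent.LT.T7 Fermat.Agent.LT.T7.H305
open Fermat.Agent.LT.T7.H340 Fermat.Agent.LT.T7.H159

section OneField

variable {K : Type} [Field K] [NumberField K]

/-- The component of a rational adele at the infinite place `w`. -/
theorem infHom_rat582 (w : InfinitePlace K) (x : K) :
    T5.infHom w (algebraMap K (Adl K) x) = w.embedding x := by
  show InfinitePlace.Completion.extensionEmbedding w
    ((algebraMap K (Adl K) x).1 w) = w.embedding x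
  rw [NumberField.AdeleRing.algebraMap_fst_apply]
  simp

end OneField

section Grp

variable {H : Type} [Group H]

/-- The product of `A a * Z` with `Z` central. -/
theorem prodFrom_central582 (A : ℕ → H) (Z : H) (hZ : ∀ x : H, Z * x = x * Z) (n i : ℕ) :
    prodFrom159 (fun a => A a * Z) n i = prodFrom159 A n i * Z ^ n := by
  induction n generalizing i with
  | zero =>
    show (1 : H) = 1 * Z ^ 0
    simp
  | succ n ih =>
    show A i * Z * prodFrom159 (fun a => A a * Z) n (i + 1)
      = A i * prodFrom159 A n (i + 1) * Z ^ (n + 1)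
    rw [ih (i + 1)]
    have hc : Z * prodFrom159 A n (i + 1) = prodFrom159 A n (i + 1) * Z := hZ _
    calc A i * Z * (prodFrom159 A n (i + 1) * Z ^ n)
        = A i * (Z * prodFrom159 A n (i + 1)) * Z ^ n := by simp only [mul_assoc]
      _ = A i * (prodFrom159 A n (i + 1) * Z) * Z ^ n := by rw [hc]
      _ = A i * prodFrom159 A n (i + 1) * Z ^ (n + 1) := by
          rw [pow_succ']
          simp only [mul_assoc]

end Grp

section TwoFields

variable {K K' : Type} [Field K] [NumberField K] [Field K'] [NumberField K'] [Algebra K K']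

theorem sigma_fix582 (D : CompData K K') (hD : IsCompData D) (x : K) :
    D.s.σ (algebraMap K K' x) = algebraMap K K' x :=
  (hD.cyc.fixed _).1 ((hD.base _).2 ⟨x, rfl⟩)

theorem finrank_up582 (l : ℕ) (hcyc : IsCycExt K K' l) :
    Module.finrank ℚ K' = Module.finrank ℚ K * l := by
  rw [← hcyc.degree]
  exact (Module.finrank_mul_finrank ℚ K K').symm

/-- The embedding `e_a = d_a ∘ (component at w_a)` of `K'`. -/
abbrev embA582 (w' : ℕ → InfinitePlace K') (d : ℕ → ℂ →+* ℂ) (a : ℕ) : K' →+* ℂ :=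
  (d a).comp ((T5.infHom (w' a)).comp (algebraMap K' (Adl K')))

theorem embA_eqns_realised582 : True := by
  have _a1 := @embA582.eq_1
  have _a2 := @embA582.eq_def
  have _a3 := @embA582.eq_unfold
  trivial

variable (D : CompData K K') (ι : Adl K →+* Adl K') (w : InfinitePlace K)
  (w' : ℕ → InfinitePlace K') (d : ℕ → ℂ →+* ℂ)

theorem d_invol582 (hd : ∀ a : ℕ, d a = RingHom.id ℂ ∨ d a = starRingEnd ℂ) (a : ℕ) (z : ℂ) :
    d a (d a z) = z := by
  rcases hd a with h | h <;> rw [h] <;> simp

theorem d_real582 (hd : ∀ a : ℕ, d a = RingHom.id ℂ ∨ d a = starRingEnd ℂ) (a : ℕ) (t : ℝ) :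
    d a (t : ℂ) = (t : ℂ) := by
  rcases hd a with h | h <;> rw [h] <;> simp

/-- `e_a` restricted to `K` is the embedding of `w`. -/
theorem embA_base582 (hι : IsAdeleBase305 D.s D.l ι)
    (hd : ∀ a : ℕ, d a = RingHom.id ℂ ∨ d a = starRingEnd ℂ)
    (hdι : ∀ (a : ℕ) (x : Adl K), T5.infHom (w' a) (ι x) = d a (T5.infHom w x))
    (a : ℕ) (x : K) :
    embA582 w' d a (algebraMap K K' x) = w.embedding x := by
  show d a (T5.infHom (w' a) (algebraMap K' (Adl K') (algebraMap K K' x))) = _
  rw [← hι.rat, hdι, d_invol582 d hd, infHom_rat582]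

/-- The place of `e_a` is `w_a`. -/
theorem mk_embA582 (hd : ∀ a : ℕ, d a = RingHom.id ℂ ∨ d a = starRingEnd ℂ) (a : ℕ) :
    InfinitePlace.mk (embA582 w' d a) = w' a := by
  have h1 : (T5.infHom (w' a)).comp (algebraMap K' (Adl K')) = (w' a).embedding := by
    ext x
    exact infHom_rat582 (w' a) x
  rcases hd a with h | h
  · have : embA582 w' d a = (w' a).embedding := by
      show (d a).comp _ = _
      rw [h, h1]
      rfl
    rw [this, InfinitePlace.mk_embedding]
  · have : embA582 w' d a = ComplexEmbedding.conjugate (w' a).embedding := by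
      show (d a).comp _ = _
      rw [h, h1]
      rfl
    rw [this, InfinitePlace.mk_conjugate_eq, InfinitePlace.mk_embedding]

/-- `e_{a+1} = e_a ∘ σ`. -/
theorem embA_succ582 (hD : IsCompData D) (htc : TotCplx K) (hι : IsAdeleBase305 D.s D.l ι)
    (hsucc : ∀ a : ℕ, w' (a + 1) = (w' a).comap (D.s.σ : K' →+* K'))
    (hd : ∀ a : ℕ, d a = RingHom.id ℂ ∨ d a = starRingEnd ℂ)
    (hdι : ∀ (a : ℕ) (x : Adl K), T5.infHom (w' a) (ι x) = d a (T5.infHom w x))
    (a : ℕ) :
    embA582 w' d (a + 1) = (embA582 w' d a).comp (D.s.σ : K' →+* K') := by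
  have hmk : InfinitePlace.mk (embA582 w' d (a + 1))
      = InfinitePlace.mk ((embA582 w' d a).comp (D.s.σ : K' →+* K')) := by
    rw [mk_embA582 w' d hd, hsucc a, ← InfinitePlace.comap_mk, mk_embA582 w' d hd]
  rcases InfinitePlace.mk_eq_iff.1 hmk with h | h
  · exact h
  · exfalso
    have hreal : ComplexEmbedding.IsReal w.embedding := by
      rw [ComplexEmbedding.isReal_iff]
      ext x
      have h1 := RingHom.congr_fun h (algebraMap K K' x)
      have h2 : (D.s.σ : K' →+* K') (algebraMap K K' x) = algebraMap K K' x :=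
        sigma_fix582 D hD x
      change conj (embA582 w' d (a + 1) (algebraMap K K' x))
        = embA582 w' d a ((D.s.σ : K' →+* K') (algebraMap K K' x)) at h1
      rw [h2, embA_base582 D ι w w' d hι hd hdι, embA_base582 D ι w w' d hι hd hdι] at h1
      rw [ComplexEmbedding.conjugate_coe_eq]
      exact h1
    exact (InfinitePlace.isComplex_iff.1 (htc w)) hreal

/-- The product of the `e_a(δ)` is `e_j` of the norm. -/
theorem prod_embA582 (hD : IsCompData D) (htc : TotCplx K) (hι : IsAdeleBase305 D.s D.l ι)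
    (hsucc : ∀ a : ℕ, w' (a + 1) = (w' a).comap (D.s.σ : K' →+* K'))
    (hd : ∀ a : ℕ, d a = RingHom.id ℂ ∨ d a = starRingEnd ℂ)
    (hdι : ∀ (a : ℕ) (x : Adl K), T5.infHom (w' a) (ι x) = d a (T5.infHom w x))
    (δ : GL (Fin 2) K') (n j : ℕ) :
    prodFrom159 (fun a => Matrix.GeneralLinearGroup.map (embA582 w' d a) δ) n j
      = Matrix.GeneralLinearGroup.map (embA582 w' d j) (D.s.normUpTo n δ) := by
  induction n generalizing j with
  | zero =>
    show (1 : GL (Fin 2) ℂ) = Matrix.GeneralLinearGroup.map (embA582 w' d j) 1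
    rw [map_one]
  | succ n ih =>
    show Matrix.GeneralLinearGroup.map (embA582 w' d j) δ
        * prodFrom159 (fun a => Matrix.GeneralLinearGroup.map (embA582 w' d a) δ) n (j + 1)
      = Matrix.GeneralLinearGroup.map (embA582 w' d j)
          (δ * D.s.onRat (D.s.normUpTo n δ))
    rw [ih (j + 1), map_mul, embA_succ582 D ι w w' d hD htc hι hsucc hd hdι j]
    rfl

/-- The component of a point of the central ray. -/
theorem ray_val582 {F : Type} [Field F] [NumberField F] (r : G F) (t : ℝ)
    (ht : ∀ w : InfinitePlace F, infComp w r = Matrix.diagonal (fun _ => (t : ℂ)))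
    (w : InfinitePlace F) :
    ((infGL305 w r : GL (Fin 2) ℂ) : Matrix (Fin 2) (Fin 2) ℂ)
      = Matrix.diagonal (fun _ => (t : ℂ)) := by
  rw [← ht w]
  rfl

theorem diag_central582 (c : ℂ) (Z x : GL (Fin 2) ℂ)
    (hZ : (Z : Matrix (Fin 2) (Fin 2) ℂ) = Matrix.diagonal (fun _ => c)) : Z * x = x * Z := by
  apply Units.ext
  rw [Units.val_mul, Units.val_mul, hZ]
  ext i j
  simp [Matrix.mul_apply, Matrix.diagonal_apply]
  fin_cases i <;> simp <;> ring

/-- **THE ALGEBRA AT THE INFINITE PLACES.** -/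
theorem prod_arch582 (hD : IsCompData D) (hcyc : IsCycExt K K' D.l) (htc : TotCplx K)
    (hι : IsAdeleBase305 D.s D.l ι)
    (hsucc : ∀ a : ℕ, w' (a + 1) = (w' a).comap (D.s.σ : K' →+* K'))
    (hd : ∀ a : ℕ, d a = RingHom.id ℂ ∨ d a = starRingEnd ℂ)
    (hdι : ∀ (a : ℕ) (x : Adl K), T5.infHom (w' a) (ι x) = d a (T5.infHom w x))
    (δ : GL (Fin 2) K') (γ : GL (Fin 2) K)
    (hnorm : D.s.normUpTo D.l δ = Matrix.GeneralLinearGroup.map (algebraMap K K') γ) (j : ℤ) :
    prodFrom159 (fun a => Matrix.GeneralLinearGroup.map (d a)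
        (infGL305 (w' a) (T5.ratG δ * D.R'.r ^ j))) D.l 0
      = infGL305 w (T5.ratG γ * D.R.r ^ j) := by
  obtain ⟨-, t', ht'pos, ht'pow, ht'⟩ := hD.frame'.ray
  obtain ⟨-, t, htpos, htpow, ht⟩ := hD.frame.ray
  have htt : t' ^ D.l = t := by
    have h1 : (t' ^ D.l) ^ (2 * Module.finrank ℚ K) = t ^ (2 * Module.finrank ℚ K) := by
      rw [← pow_mul, htpow, ← ht'pow, finrank_up582 D.l hcyc]
      congr 1
      ring
    have hpos : 2 * Module.finrank ℚ K ≠ 0 := by
      have := Module.finrank_pos (R := ℚ) (M := K)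
      omega
    exact (pow_left_inj₀ (pow_nonneg ht'pos.le _) htpos.le hpos).1 h1
  set Z : GL (Fin 2) ℂ :=
    Matrix.GeneralLinearGroup.map (d 0) (infGL305 (w' 0) D.R'.r) with hZ
  have hZval : ∀ a : ℕ, ((Matrix.GeneralLinearGroup.map (d a) (infGL305 (w' a) D.R'.r) :
      GL (Fin 2) ℂ) : Matrix (Fin 2) (Fin 2) ℂ) = Matrix.diagonal (fun _ => (t' : ℂ)) := by
    intro a
    have h1 : ((Matrix.GeneralLinearGroup.map (d a) (infGL305 (w' a) D.R'.r) :
        GL (Fin 2) ℂ) : Matrix (Fin 2) (Fin 2) ℂ)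
        = ((infGL305 (w' a) D.R'.r : GL (Fin 2) ℂ) : Matrix (Fin 2) (Fin 2) ℂ).map (d a) := rfl
    rw [h1, ray_val582 D.R'.r t' ht' (w' a), Matrix.diagonal_map (map_zero _)]
    congr 1
    funext _
    exact d_real582 d hd a t'
  have hZa : ∀ a : ℕ, Matrix.GeneralLinearGroup.map (d a) (infGL305 (w' a) D.R'.r) = Z :=
    fun a => Units.ext (by rw [hZval a, hZ, hZval 0])
  have hZc : ∀ x : GL (Fin 2) ℂ, Z ^ j * x = x * Z ^ j := by
    intro x
    have hc : Commute Z x := diag_central582 (t' : ℂ) Z x (hZval 0)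
    exact (hc.zpow_left j).eq
  have hfun : (fun a => Matrix.GeneralLinearGroup.map (d a)
        (infGL305 (w' a) (T5.ratG δ * D.R'.r ^ j)))
      = fun a => Matrix.GeneralLinearGroup.map (embA582 w' d a) δ * Z ^ j := by
    funext a
    rw [map_mul, map_mul, map_zpow, map_zpow, hZa a]
    rfl
  rw [hfun, prodFrom_central582 _ (Z ^ j) hZc D.l 0,
    prod_embA582 D ι w w' d hD htc hι hsucc hd hdι, hnorm, map_mul, map_zpow]
  have he : (embA582 w' d 0).comp (algebraMap K K')
      = (T5.infHom w).comp (algebraMap K (Adl K)) := by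
    ext x
    rw [RingHom.comp_apply, embA_base582 D ι w w' d hι hd hdι, RingHom.comp_apply,
      infHom_rat582]
  have h1 : Matrix.GeneralLinearGroup.map (embA582 w' d 0)
      (Matrix.GeneralLinearGroup.map (algebraMap K K') γ) = infGL305 w (T5.ratG γ) := by
    show Matrix.GeneralLinearGroup.map ((embA582 w' d 0).comp (algebraMap K K')) γ
      = Matrix.GeneralLinearGroup.map ((T5.infHom w).comp (algebraMap K (Adl K))) γ
    rw [he]
  have hZl : Z ^ D.l = infGL305 w D.R.r := by
    apply Units.ext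
    rw [Units.val_pow_eq_pow_val, hZval 0, Matrix.diagonal_pow, ray_val582 D.R.r t ht w]
    congr 1
    funext _
    show ((t' : ℂ)) ^ D.l = (t : ℂ)
    rw [← htt]
    push_cast
    rfl
  rw [h1, ← hZl]
  congr 1
  rw [← zpow_natCast, ← zpow_natCast, ← zpow_mul, ← zpow_mul, mul_comm]

end TwoFields

end Fermat.Agent.LT.T7.H582

end
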