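import Mathlib

/-!
# Row LT, tower T7, leaf C2.7.13.4 `LocEqArchC340` (helper582, registry row 2623), OFF-MAIN

PART 3 (Mathlib only): **the orbit of a regular element of `GL₂(ℂ)` is closed, in the form
needed for the cut-off integrals**: if `g ∈ GL₂(ℂ)` has non-zero discriminant and `C` is compact,
there is a compact set `Ω` such that every `z` with `z⁻¹ g z ∈ C` is of the form `t ω` with `t`
in the centraliser of `g` and `ω ∈ Ω`.

Proof (cyclic vectors).  For a row vector `ρ` and a matrix `Y` let `B(ρ, Y)` be the matrix with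
the rows `ρ`, `ρ Y`; then `B(ρ, Y) Y = c(Y) B(ρ, Y)` with the companion matrix `c(Y)` of the
characteristic polynomial (Cayley-Hamilton).  If `Y` is regular, `B(ρ, Y)` is invertible for one
of the three vectors `(1,0)`, `(0,1)`, `(1,1)`.  If `X = z⁻¹ g z` then `c(X) = c(g)` and
`z₀ = B(u, g)⁻¹ B(ρ, X)` satisfies `g z₀ = z₀ X`, so `t = z z₀⁻¹` centralises `g`; `z₀` depends
continuously on `X` where `B(ρ, X)` is invertible, and a compact set covered by three open sets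
is the union of three compact sets contained in them.
-/

set_option autoImplicit false

open scoped Topology

noncomputable section

namespace Fermat.Agent.LT.T7.H582

/-- The matrix with the rows `ρ`, `ρ Y`. -/
def bmat582 (ρ : Fin 2 → ℂ) (Y : Matrix (Fin 2) (Fin 2) ℂ) : Matrix (Fin 2) (Fin 2) ℂ :=
  !![ρ 0, ρ 1; ρ 0 * Y 0 0 + ρ 1 * Y 1 0, ρ 0 * Y 0 1 + ρ 1 * Y 1 1]

/-- The companion matrix of the characteristic polynomial of `Y`. -/
def cmat582 (Y : Matrix (Fin 2) (Fin 2) ℂ) : Matrix (Fin 2) (Fin 2) ℂ :=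
  !![0, 1; - Y.det, Y.trace]

/-- The three test vectors. -/
def rho582 : Fin 3 → Fin 2 → ℂ := ![![1, 0], ![0, 1], ![1, 1]]

theorem orbit_eqns_realised582 : True := by
  have _a1 := @bmat582.eq_1
  have _a2 := @bmat582.eq_def
  have _a3 := @bmat582.eq_unfold
  have _b1 := @cmat582.eq_1
  have _b2 := @cmat582.eq_def
  have _b3 := @cmat582.eq_unfold
  have _c1 := @rho582.eq_1
  have _c2 := @rho582.eq_def
  have _c3 := @rho582.eq_unfold
  trivial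

theorem bmat_mul582 (ρ : Fin 2 → ℂ) (Y : Matrix (Fin 2) (Fin 2) ℂ) :
    bmat582 ρ Y * Y = cmat582 Y * bmat582 ρ Y := by
  ext i j
  fin_cases i <;> fin_cases j <;>
    simp [bmat582, cmat582, Matrix.mul_apply, Fin.sum_univ_two, Matrix.det_fin_two,
      Matrix.trace_fin_two] <;> ring

theorem det_bmat582 (ρ : Fin 2 → ℂ) (Y : Matrix (Fin 2) (Fin 2) ℂ) :
    (bmat582 ρ Y).det
      = Y 0 1 * ρ 0 ^ 2 + (Y 1 1 - Y 0 0) * ρ 0 * ρ 1 - Y 1 0 * ρ 1 ^ 2 := by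
  simp [bmat582, Matrix.det_fin_two]
  ring

theorem exists_cyclic582 (Y : Matrix (Fin 2) (Fin 2) ℂ) (hY : Y.trace ^ 2 - 4 * Y.det ≠ 0) :
    ∃ i : Fin 3, (bmat582 (rho582 i) Y).det ≠ 0 := by
  by_contra h
  simp only [not_exists, ne_eq, not_not] at h
  have h0 := h 0
  have h1 := h 1
  have h2 := h 2
  rw [det_bmat582] at h0 h1 h2
  simp [rho582] at h0 h1 h2
  apply hY
  rw [Matrix.trace_fin_two, Matrix.det_fin_two]
  rw [h0, h1] at h2
  have h3 : Y 1 1 = Y 0 0 := by linear_combination h2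
  rw [h0, h1, h3]
  ring

theorem continuous_bmat582 (ρ : Fin 2 → ℂ) :
    Continuous (fun Y : Matrix (Fin 2) (Fin 2) ℂ => bmat582 ρ Y) := by
  refine continuous_matrix fun i j => ?_
  fin_cases i <;> fin_cases j <;> simp [bmat582] <;> fun_prop

/-- The map `X ↦ B(ρ, X)` into `GL₂(ℂ)` on the set where the determinant does not vanish is
continuous. -/
theorem continuous_mkB582 (ρ : Fin 2 → ℂ) :
    Continuous (fun X : {X : GL (Fin 2) ℂ // (bmat582 ρ (X : Matrix (Fin 2) (Fin 2) ℂ)).det ≠ 0} =>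
      Matrix.GeneralLinearGroup.mkOfDetNeZero (bmat582 ρ ((X : GL (Fin 2) ℂ) :
        Matrix (Fin 2) (Fin 2) ℂ)) X.2) := by
  have hval : Continuous (fun X : {X : GL (Fin 2) ℂ //
      (bmat582 ρ (X : Matrix (Fin 2) (Fin 2) ℂ)).det ≠ 0} =>
      bmat582 ρ ((X : GL (Fin 2) ℂ) : Matrix (Fin 2) (Fin 2) ℂ)) :=
    (continuous_bmat582 ρ).comp (Units.continuous_val.comp continuous_subtype_val)
  rw [Units.continuous_iff]
  refine ⟨hval, ?_⟩
  have hinv : (fun X : {X : GL (Fin 2) ℂ //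
      (bmat582 ρ (X : Matrix (Fin 2) (Fin 2) ℂ)).det ≠ 0} =>
      (((Matrix.GeneralLinearGroup.mkOfDetNeZero (bmat582 ρ ((X : GL (Fin 2) ℂ) :
        Matrix (Fin 2) (Fin 2) ℂ)) X.2)⁻¹ : GL (Fin 2) ℂ) : Matrix (Fin 2) (Fin 2) ℂ))
      = fun X : {X : GL (Fin 2) ℂ //
          (bmat582 ρ (X : Matrix (Fin 2) (Fin 2) ℂ)).det ≠ 0} =>
        ((bmat582 ρ ((X : GL (Fin 2) ℂ) : Matrix (Fin 2) (Fin 2) ℂ)).det)⁻¹
          • (bmat582 ρ ((X : GL (Fin 2) ℂ) : Matrix (Fin 2) (Fin 2) ℂ)).adjugate := by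
    funext X
    rw [Matrix.coe_units_inv]
    show (bmat582 ρ ((X : GL (Fin 2) ℂ) : Matrix (Fin 2) (Fin 2) ℂ))⁻¹ = _
    rw [Matrix.inv_def, Ring.inverse_eq_inv']
  rw [hinv]
  exact ((Continuous.matrix_det hval).inv₀ fun X => X.2).smul (Continuous.matrix_adjugate hval)

/-- **THE ORBIT OF A REGULAR ELEMENT IS CLOSED** (form for the cut-off integrals). -/
theorem orbit_cover582 (g : GL (Fin 2) ℂ)
    (hg : (g : Matrix (Fin 2) (Fin 2) ℂ).trace ^ 2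
      - 4 * (g : Matrix (Fin 2) (Fin 2) ℂ).det ≠ 0)
    (C : Set (GL (Fin 2) ℂ)) (hC : IsCompact C) :
    ∃ Ω : Set (GL (Fin 2) ℂ), IsCompact Ω ∧
      ∀ z : GL (Fin 2) ℂ, z⁻¹ * g * z ∈ C →
        ∃ t : GL (Fin 2) ℂ, t⁻¹ * g * t = g ∧ t⁻¹ * z ∈ Ω := by
  obtain ⟨i₀, hi₀⟩ := exists_cyclic582 _ hg
  set Bg : GL (Fin 2) ℂ := Matrix.GeneralLinearGroup.mkOfDetNeZero _ hi₀ with hBg
  -- the closed condition `c(X) = c(g)`
  set C' : Set (GL (Fin 2) ℂ) := C ∩ {X | (X : Matrix (Fin 2) (Fin 2) ℂ).trace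
      = (g : Matrix (Fin 2) (Fin 2) ℂ).trace ∧ (X : Matrix (Fin 2) (Fin 2) ℂ).det
      = (g : Matrix (Fin 2) (Fin 2) ℂ).det} with hC'
  have hcl : IsClosed {X : GL (Fin 2) ℂ | (X : Matrix (Fin 2) (Fin 2) ℂ).trace
      = (g : Matrix (Fin 2) (Fin 2) ℂ).trace ∧ (X : Matrix (Fin 2) (Fin 2) ℂ).det
      = (g : Matrix (Fin 2) (Fin 2) ℂ).det} := by
    have h1 : Continuous (fun X : GL (Fin 2) ℂ => (X : Matrix (Fin 2) (Fin 2) ℂ).trace) :=
      Continuous.matrix_trace Units.continuous_val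
    have h2 : Continuous (fun X : GL (Fin 2) ℂ => (X : Matrix (Fin 2) (Fin 2) ℂ).det) :=
      Continuous.matrix_det Units.continuous_val
    exact (isClosed_eq h1 continuous_const).inter (isClosed_eq h2 continuous_const)
  have hC'c : IsCompact C' := hC.inter_right hcl
  -- the open cover
  set U : Fin 3 → Set (GL (Fin 2) ℂ) :=
    fun i => {X | (bmat582 (rho582 i) (X : Matrix (Fin 2) (Fin 2) ℂ)).det ≠ 0} with hU
  have hUo : ∀ i ∈ (Finset.univ : Finset (Fin 3)), IsOpen (U i) := by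
    intro i _
    have h1 : Continuous (fun X : GL (Fin 2) ℂ =>
        (bmat582 (rho582 i) (X : Matrix (Fin 2) (Fin 2) ℂ)).det) :=
      Continuous.matrix_det ((continuous_bmat582 _).comp Units.continuous_val)
    exact isOpen_ne_fun h1 continuous_const
  have hcov : C' ⊆ ⋃ i ∈ (Finset.univ : Finset (Fin 3)), U i := by
    intro X hX
    have hXd : (X : Matrix (Fin 2) (Fin 2) ℂ).trace ^ 2
        - 4 * (X : Matrix (Fin 2) (Fin 2) ℂ).det ≠ 0 := by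
      rw [hX.2.1, hX.2.2]
      exact hg
    obtain ⟨i, hi⟩ := exists_cyclic582 _ hXd
    exact Set.mem_biUnion (Finset.mem_univ i) hi
  obtain ⟨Kc, hKc, hKU, hKeq⟩ := hC'c.finite_compact_cover Finset.univ U hUo hcov
  -- the compact set
  set f : ∀ i : Fin 3, {X : GL (Fin 2) ℂ //
      (bmat582 (rho582 i) (X : Matrix (Fin 2) (Fin 2) ℂ)).det ≠ 0} → GL (Fin 2) ℂ :=
    fun i X => Bg⁻¹ * Matrix.GeneralLinearGroup.mkOfDetNeZero
      (bmat582 (rho582 i) ((X : GL (Fin 2) ℂ) : Matrix (Fin 2) (Fin 2) ℂ)) X.2 with hf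
  have hfc : ∀ i, Continuous (f i) := fun i =>
    continuous_const.mul (continuous_mkB582 (rho582 i))
  set Ω : Set (GL (Fin 2) ℂ) := ⋃ i : Fin 3, f i '' (Subtype.val ⁻¹' Kc i) with hΩ
  have hΩc : IsCompact Ω := by
    refine isCompact_iUnion fun i => ?_
    refine IsCompact.image ?_ (hfc i)
    refine (Topology.IsInducing.subtypeVal.isCompact_preimage_iff ?_).2 (hKc i)
    intro X hX
    exact ⟨⟨X, hKU i hX⟩, rfl⟩
  refine ⟨Ω, hΩc, fun z hz => ?_⟩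
  set X : GL (Fin 2) ℂ := z⁻¹ * g * z with hX
  have hXtr : (X : Matrix (Fin 2) (Fin 2) ℂ).trace = (g : Matrix (Fin 2) (Fin 2) ℂ).trace := by
    have h1 : (X : Matrix (Fin 2) (Fin 2) ℂ)
        = ((z⁻¹ : GL (Fin 2) ℂ) : Matrix (Fin 2) (Fin 2) ℂ) * (g : Matrix (Fin 2) (Fin 2) ℂ)
          * (z : Matrix (Fin 2) (Fin 2) ℂ) := by
      simp [hX]
    rw [h1, Matrix.trace_mul_cycle, ← Units.val_mul, mul_inv_cancel, Units.val_one, one_mul]
  have hXdet : (X : Matrix (Fin 2) (Fin 2) ℂ).det = (g : Matrix (Fin 2) (Fin 2) ℂ).det := by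
    have h1 : (X : Matrix (Fin 2) (Fin 2) ℂ)
        = ((z⁻¹ : GL (Fin 2) ℂ) : Matrix (Fin 2) (Fin 2) ℂ) * (g : Matrix (Fin 2) (Fin 2) ℂ)
          * (z : Matrix (Fin 2) (Fin 2) ℂ) := by
      simp [hX]
    rw [h1, Matrix.det_mul, Matrix.det_mul, mul_comm, ← mul_assoc, ← Matrix.det_mul,
      ← Units.val_mul, mul_inv_cancel, Units.val_one, Matrix.det_one, one_mul]
  have hXC' : X ∈ C' := ⟨hz, hXtr, hXdet⟩
  rw [hKeq] at hXC'
  obtain ⟨i, hi⟩ := Set.mem_iUnion.1 hXC'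
  obtain ⟨-, hXi⟩ := Set.mem_iUnion.1 hi
  have hXU : (bmat582 (rho582 i) (X : Matrix (Fin 2) (Fin 2) ℂ)).det ≠ 0 := hKU i hXi
  set BX : GL (Fin 2) ℂ := Matrix.GeneralLinearGroup.mkOfDetNeZero _ hXU with hBX
  set z₀ : GL (Fin 2) ℂ := Bg⁻¹ * BX with hz₀
  have hz₀Ω : z₀ ∈ Ω := by
    refine Set.mem_iUnion.2 ⟨i, ⟨⟨X, hXU⟩, hXi, rfl⟩⟩
  -- `g z₀ = z₀ X`
  have hcm : cmat582 (X : Matrix (Fin 2) (Fin 2) ℂ) = cmat582 (g : Matrix (Fin 2) (Fin 2) ℂ) := by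
    simp [cmat582, hXtr, hXdet]
  have hBgg : Bg * g = (Bg * g * Bg⁻¹) * Bg := by group
  have hkey : Bg * g * Bg⁻¹ = BX * X * BX⁻¹ := by
    have e1 : (Bg : Matrix (Fin 2) (Fin 2) ℂ) * (g : Matrix (Fin 2) (Fin 2) ℂ)
        = cmat582 (g : Matrix (Fin 2) (Fin 2) ℂ) * (Bg : Matrix (Fin 2) (Fin 2) ℂ) :=
      bmat_mul582 _ _
    have e2 : (BX : Matrix (Fin 2) (Fin 2) ℂ) * (X : Matrix (Fin 2) (Fin 2) ℂ)
        = cmat582 (g : Matrix (Fin 2) (Fin 2) ℂ) * (BX : Matrix (Fin 2) (Fin 2) ℂ) := by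
      rw [← hcm]
      exact bmat_mul582 _ _
    apply Units.ext
    have e3 : ((Bg * g * Bg⁻¹ : GL (Fin 2) ℂ) : Matrix (Fin 2) (Fin 2) ℂ)
        = cmat582 (g : Matrix (Fin 2) (Fin 2) ℂ) := by
      rw [Units.val_mul, Units.val_mul, e1, Matrix.mul_assoc, ← Units.val_mul,
        mul_inv_cancel, Units.val_one, Matrix.mul_one]
    have e4 : ((BX * X * BX⁻¹ : GL (Fin 2) ℂ) : Matrix (Fin 2) (Fin 2) ℂ)
        = cmat582 (g : Matrix (Fin 2) (Fin 2) ℂ) := by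
      rw [Units.val_mul, Units.val_mul, e2, Matrix.mul_assoc, ← Units.val_mul,
        mul_inv_cancel, Units.val_one, Matrix.mul_one]
    rw [e3, e4]
  have hgz : z₀ * X * z₀⁻¹ = g := by
    have : z₀ * X * z₀⁻¹ = Bg⁻¹ * (BX * X * BX⁻¹) * Bg := by
      rw [hz₀]; group
    rw [this, ← hkey]
    group
  refine ⟨z * z₀⁻¹, ?_, ?_⟩
  · have : (z * z₀⁻¹)⁻¹ * g * (z * z₀⁻¹) = z₀ * (z⁻¹ * g * z) * z₀⁻¹ := by group
    rw [this, ← hX, hgz]
  · have : (z * z₀⁻¹)⁻¹ * z = z₀ := by group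
    rw [this]
    exact hz₀Ω

end Fermat.Agent.LT.T7.H582

end
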