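import Mathlib
import Fermat.Agent.LT.T7.H159.SplitIntL

/-!
# Row LT, tower T7, leaf C2.7.13.4 `LocEqArchC340` (helper582, registry row 2623), OFF-MAIN

PART 1 (Mathlib + helper159 `SplitIntL.lean` only): **Fubini for the cyclic chain integral**.

`H` a locally compact second countable group, `μ` a Haar measure, `Φ j` continuous with compact
support, `β` continuous and non-negative.  If the cut-off integrals of the indicator functions
of the compact sets along the orbit of `g = δ_0 ⋯ δ_n` are finite, then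

    ∫_{H^{n+1}} ∏_{j ≤ n} Φ_j(y_j⁻¹ δ_j y_{j+1}) β(y_0) dy     (indices modulo `n + 1`)
      = ∫_H convL159 μ Φ n (z⁻¹ g z) β(z) dμ(z).

New names only (suffix `582`); theorems and ONE recursive definition (`chain582`, equation
lemmas realised here).
-/

set_option autoImplicit false

open MeasureTheory
open scoped Pointwise

noncomputable section

namespace Fermat.Agent.LT.T7.H582

open Fermat.Agent.LT.T6 Fermat.Agent.LT.T7.H159

variable {H : Type} [Group H]

/-- The product of the `Φ j` along the path `a → x_0 → ⋯ → x_{n-1} → b` (`n + 1` factors). -/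
def chain582 (Φ : ℕ → H → ℂ) (δ : ℕ → H) : (n : ℕ) → H → H → (Fin n → H) → ℂ
  | 0, a, b, _ => Φ 0 (a⁻¹ * δ 0 * b)
  | (n + 1), a, b, x =>
      chain582 Φ δ n a (x (Fin.last n)) (Fin.init x)
        * Φ (n + 1) ((x (Fin.last n))⁻¹ * δ (n + 1) * b)

theorem chain582_eqns_realised : True := by
  have _h0 := @chain582.eq_def
  have _h1 := @chain582.eq_1
  have _h2 := @chain582.eq_2
  have _h3 := @chain582.eq_unfold
  trivial

theorem chain_zero582 (Φ : ℕ → H → ℂ) (δ : ℕ → H) (a b : H) (x : Fin 0 → H) :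
    chain582 Φ δ 0 a b x = Φ 0 (a⁻¹ * δ 0 * b) := rfl

theorem chain_succ582 (Φ : ℕ → H → ℂ) (δ : ℕ → H) (n : ℕ) (a b : H) (x : Fin (n + 1) → H) :
    chain582 Φ δ (n + 1) a b x
      = chain582 Φ δ n a (x (Fin.last n)) (Fin.init x)
        * Φ (n + 1) ((x (Fin.last n))⁻¹ * δ (n + 1) * b) := rfl

theorem chain_snoc582 (Φ : ℕ → H → ℂ) (δ : ℕ → H) (n : ℕ) (a b c : H) (x : Fin n → H) :
    chain582 Φ δ (n + 1) a b (Fin.snoc x c)
      = chain582 Φ δ n a c x * Φ (n + 1) (c⁻¹ * δ (n + 1) * b) := by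
  rw [chain_succ582, Fin.snoc_last, Fin.init_snoc]

section Top

variable [TopologicalSpace H] [IsTopologicalGroup H]

theorem continuous_init582 (n : ℕ) :
    Continuous (fun x : Fin (n + 1) → H => (Fin.init x : Fin n → H)) :=
  continuous_pi fun _ => continuous_apply _

theorem continuous_chain582 (Φ : ℕ → H → ℂ) (hΦ : ∀ j, Continuous (Φ j)) (δ : ℕ → H) (n : ℕ) :
    Continuous (fun p : H × H × (Fin n → H) => chain582 Φ δ n p.1 p.2.1 p.2.2) := by
  induction n with
  | zero =>
    show Continuous (fun p : H × H × (Fin 0 → H) => Φ 0 (p.1⁻¹ * δ 0 * p.2.1))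
    exact (hΦ 0).comp (by fun_prop)
  | succ n ih =>
    show Continuous (fun p : H × H × (Fin (n + 1) → H) =>
      chain582 Φ δ n p.1 (p.2.2 (Fin.last n)) (Fin.init p.2.2)
        * Φ (n + 1) ((p.2.2 (Fin.last n))⁻¹ * δ (n + 1) * p.2.1))
    have h1 : Continuous (fun p : H × H × (Fin (n + 1) → H) =>
        ((p.1, p.2.2 (Fin.last n), (Fin.init p.2.2 : Fin n → H)) : H × H × (Fin n → H))) := by
      refine continuous_fst.prodMk (Continuous.prodMk ?_ ?_)
      · exact (continuous_apply (Fin.last n)).comp (continuous_snd.comp continuous_snd)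
      · exact (continuous_init582 n).comp (continuous_snd.comp continuous_snd)
    have h2 : Continuous (fun p : H × H × (Fin (n + 1) → H) =>
        (p.2.2 (Fin.last n))⁻¹ * δ (n + 1) * p.2.1) := by
      have h3 : Continuous (fun p : H × H × (Fin (n + 1) → H) => p.2.2 (Fin.last n)) :=
        (continuous_apply (Fin.last n)).comp (continuous_snd.comp continuous_snd)
      exact (h3.inv.mul continuous_const).mul (continuous_fst.comp continuous_snd)
    exact (ih.comp h1).mul ((hΦ (n + 1)).comp h2)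

theorem continuous_chain_right582 (Φ : ℕ → H → ℂ) (hΦ : ∀ j, Continuous (Φ j)) (δ : ℕ → H)
    (n : ℕ) (a b : H) : Continuous (fun x : Fin n → H => chain582 Φ δ n a b x) :=
  (continuous_chain582 Φ hΦ δ n).comp
    (continuous_const.prodMk (continuous_const.prodMk continuous_id))

end Top

/-- The open chain as a product over `Fin (n + 1)`. -/
theorem prod_open582 (Φ : ℕ → H → ℂ) (δ : ℕ → H) (n : ℕ) (y : Fin (n + 1) → H) (b : H) :
    (∏ j : Fin (n + 1), Φ j.1 ((y j)⁻¹ * δ j.1
        * (if h : j.1 + 1 < n + 1 then y ⟨j.1 + 1, h⟩ else b)))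
      = chain582 Φ δ n (y 0) b (Fin.tail y) := by
  induction n generalizing b with
  | zero =>
    rw [Fin.prod_univ_one]
    simp [chain_zero582]
  | succ n ih =>
    rw [Fin.prod_univ_castSucc, chain_succ582]
    have h1 : (Fin.tail y) (Fin.last n) = y (Fin.last (n + 1)) := by
      show y (Fin.succ (Fin.last n)) = _
      rw [Fin.succ_last]
    have h2 : (Fin.init (Fin.tail y) : Fin n → H) = Fin.tail (Fin.init y) := rfl
    have h3 : (Fin.init y : Fin (n + 1) → H) 0 = y 0 := rfl
    rw [h1, h2, ← h3, ← ih (Fin.init y) (y (Fin.last (n + 1)))]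
    congr 1
    · refine Finset.prod_congr rfl fun j _ => ?_
      have hj : (Fin.castSucc j).1 = j.1 := rfl
      have hj2 : (Fin.castSucc j).1 + 1 < n + 1 + 1 := by rw [hj]; omega
      rw [dif_pos hj2]
      congr 2
      by_cases h : j.1 + 1 < n + 1
      · rw [dif_pos h]
        rfl
      · rw [dif_neg h]
        congr 1
        apply Fin.ext
        show j.1 + 1 = n + 1
        have := j.2
        omega
    · have h4 : ¬ ((Fin.last (n + 1)).1 + 1 < n + 1 + 1) := by
        show ¬ (n + 1 + 1 < n + 1 + 1)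
        omega
      rw [dif_neg h4]
      rfl

/-- The closed (cyclic) chain as a product over `Fin (n + 1)`. -/
theorem prod_cyclic582 (Φ : ℕ → H → ℂ) (δ : ℕ → H) (n : ℕ) (y : Fin (n + 1) → H) :
    (∏ j : Fin (n + 1), Φ j.1 ((y j)⁻¹ * δ j.1
        * y ⟨(j.1 + 1) % (n + 1), Nat.mod_lt _ (Nat.succ_pos n)⟩))
      = chain582 Φ δ n (y 0) (y 0) (Fin.tail y) := by
  rw [← prod_open582]
  refine Finset.prod_congr rfl fun j _ => ?_
  congr 2
  by_cases h : j.1 + 1 < n + 1
  · rw [dif_pos h]
    congr 1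
    apply Fin.ext
    exact Nat.mod_eq_of_lt h
  · rw [dif_neg h]
    congr 1
    apply Fin.ext
    show (j.1 + 1) % (n + 1) = 0
    have hj := j.2
    have : j.1 + 1 = n + 1 := by omega
    rw [this, Nat.mod_self]

section Meas

variable [TopologicalSpace H] [IsTopologicalGroup H] [LocallyCompactSpace H] [T2Space H]
  [SecondCountableTopology H] [MeasurableSpace H] [BorelSpace H] (μ : Measure H)
  [μ.IsHaarMeasure]

/-- Peeling the LAST variable of an integral over `H^{n+1}` (`lintegral`). -/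
theorem lintegral_pi_last582 (n : ℕ) (f : (Fin (n + 1) → H) → ENNReal) :
    ∫⁻ y, f y ∂(Measure.pi fun _ : Fin (n + 1) => μ)
      = ∫⁻ p : H × (Fin n → H), f (Fin.snoc p.2 p.1)
          ∂(μ.prod (Measure.pi fun _ : Fin n => μ)) := by
  have hmp : MeasurePreserving (MeasurableEquiv.piFinSuccAbove (fun _ : Fin (n + 1) => H)
      (Fin.last n)) (Measure.pi fun _ : Fin (n + 1) => μ)
      (μ.prod (Measure.pi fun _ : Fin n => μ)) :=
    measurePreserving_piFinSuccAbove (fun _ : Fin (n + 1) => μ) (Fin.last n)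
  have h := hmp.symm.lintegral_comp_emb (MeasurableEquiv.measurableEmbedding _) f
  rw [← h]
  refine lintegral_congr fun p => ?_
  congr 1
  simp only [MeasurableEquiv.piFinSuccAbove_symm_apply, Fin.insertNthEquiv_last]
  rfl

/-- Peeling the LAST variable of an integral over `H^{n+1}` (Bochner integral). -/
theorem integral_pi_last582 (n : ℕ) (f : (Fin (n + 1) → H) → ℂ) :
    ∫ y, f y ∂(Measure.pi fun _ : Fin (n + 1) => μ)
      = ∫ p : H × (Fin n → H), f (Fin.snoc p.2 p.1)
          ∂(μ.prod (Measure.pi fun _ : Fin n => μ)) := by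
  have hmp : MeasurePreserving (MeasurableEquiv.piFinSuccAbove (fun _ : Fin (n + 1) => H)
      (Fin.last n)) (Measure.pi fun _ : Fin (n + 1) => μ)
      (μ.prod (Measure.pi fun _ : Fin n => μ)) :=
    measurePreserving_piFinSuccAbove (fun _ : Fin (n + 1) => μ) (Fin.last n)
  have h := hmp.symm.integral_comp' (g := f)
  rw [← h]
  refine integral_congr_ae (ae_of_all _ fun p => ?_)
  show f _ = f _
  congr 1
  simp only [MeasurableEquiv.piFinSuccAbove_symm_apply, Fin.insertNthEquiv_last]
  rfl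

/-- Peeling the FIRST variable of an integral over `H^{n+1}` (`lintegral`). -/
theorem lintegral_pi_first582 (n : ℕ) (f : (Fin (n + 1) → H) → ENNReal) :
    ∫⁻ y, f y ∂(Measure.pi fun _ : Fin (n + 1) => μ)
      = ∫⁻ p : H × (Fin n → H), f (Fin.cons p.1 p.2)
          ∂(μ.prod (Measure.pi fun _ : Fin n => μ)) := by
  have hmp : MeasurePreserving (MeasurableEquiv.piFinSuccAbove (fun _ : Fin (n + 1) => H)
      0) (Measure.pi fun _ : Fin (n + 1) => μ)
      (μ.prod (Measure.pi fun _ : Fin n => μ)) :=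
    measurePreserving_piFinSuccAbove (fun _ : Fin (n + 1) => μ) 0
  have h := hmp.symm.lintegral_comp_emb (MeasurableEquiv.measurableEmbedding _) f
  rw [← h]
  refine lintegral_congr fun p => ?_
  congr 1
  simp only [MeasurableEquiv.piFinSuccAbove_symm_apply, Fin.insertNthEquiv_zero]
  rfl

/-- Peeling the FIRST variable of an integral over `H^{n+1}` (Bochner integral). -/
theorem integral_pi_first582 (n : ℕ) (f : (Fin (n + 1) → H) → ℂ) :
    ∫ y, f y ∂(Measure.pi fun _ : Fin (n + 1) => μ)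
      = ∫ p : H × (Fin n → H), f (Fin.cons p.1 p.2)
          ∂(μ.prod (Measure.pi fun _ : Fin n => μ)) := by
  have hmp : MeasurePreserving (MeasurableEquiv.piFinSuccAbove (fun _ : Fin (n + 1) => H)
      0) (Measure.pi fun _ : Fin (n + 1) => μ)
      (μ.prod (Measure.pi fun _ : Fin n => μ)) :=
    measurePreserving_piFinSuccAbove (fun _ : Fin (n + 1) => μ) 0
  have h := hmp.symm.integral_comp' (g := f)
  rw [← h]
  refine integral_congr_ae (ae_of_all _ fun p => ?_)
  show f _ = f _
  congr 1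
  simp only [MeasurableEquiv.piFinSuccAbove_symm_apply, Fin.insertNthEquiv_zero]
  rfl

/-- A continuous function with compact support is bounded by a multiple of the indicator
function of its (compact) topological support. -/
theorem enorm_le_indicator582 (φ : H → ℂ) (hc : Continuous φ) (hs : HasCompactSupport φ) :
    ∃ m : ENNReal, m < ⊤ ∧ ∀ h : H, ‖φ h‖ₑ ≤ m * (tsupport φ).indicator 1 h := by
  obtain ⟨C, hC⟩ := hs.exists_bound_of_continuous hc
  refine ⟨ENNReal.ofReal C, ENNReal.ofReal_lt_top, fun h => ?_⟩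
  by_cases hh : h ∈ tsupport φ
  · rw [Set.indicator_of_mem hh, Pi.one_apply, mul_one]
    rw [← ofReal_norm]
    exact ENNReal.ofReal_le_ofReal (hC h)
  · have h0 : φ h = 0 := image_eq_zero_of_notMem_tsupport hh
    simp [h0]

/-- **The bound.**  The integral of the norm of the chain over the inner variables is bounded by
a multiple of the indicator function of a compact set at `a⁻¹ (δ_0 ⋯ δ_n) b`. -/
theorem lintegral_chain_le582 (Φ : ℕ → H → ℂ)
    (hΦ : ∀ j, Continuous (Φ j) ∧ HasCompactSupport (Φ j)) (δ : ℕ → H) (n : ℕ) :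
    ∃ (M : ENNReal) (C : Set H), M < ⊤ ∧ IsCompact C ∧ ∀ a b : H,
      ∫⁻ x, ‖chain582 Φ δ n a b x‖ₑ ∂(Measure.pi fun _ : Fin n => μ)
        ≤ M * C.indicator 1 (a⁻¹ * prodFrom159 δ (n + 1) 0 * b) := by
  induction n with
  | zero =>
    obtain ⟨m, hm, hmb⟩ := enorm_le_indicator582 (Φ 0) (hΦ 0).1 (hΦ 0).2
    refine ⟨m, tsupport (Φ 0), hm, (hΦ 0).2, fun a b => ?_⟩
    have hp : prodFrom159 δ (0 + 1) 0 = δ 0 := by
      show δ 0 * 1 = δ 0
      rw [mul_one]
    rw [hp]
    have hconst : (fun x : Fin 0 → H => ‖chain582 Φ δ 0 a b x‖ₑ)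
        = fun _ => ‖Φ 0 (a⁻¹ * δ 0 * b)‖ₑ := rfl
    rw [hconst, lintegral_const]
    have huniv : (Measure.pi fun _ : Fin 0 => μ) Set.univ = 1 := by
      rw [Measure.pi_of_empty (fun _ : Fin 0 => μ) (fun i => Fin.elim0 i)]
      simp
    rw [huniv, mul_one]
    exact hmb _
  | succ n ih =>
    obtain ⟨M, C, hM, hC, hb⟩ := ih
    obtain ⟨m, hm, hmb⟩ := enorm_le_indicator582 (Φ (n + 1)) (hΦ (n + 1)).1 (hΦ (n + 1)).2
    refine ⟨M * m * μ C, C * tsupport (Φ (n + 1)),
      ENNReal.mul_lt_top (ENNReal.mul_lt_top hM hm) hC.measure_lt_top,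
      hC.mul (hΦ (n + 1)).2, fun a b => ?_⟩
    set g := prodFrom159 δ (n + 1) 0 with hg
    have hgs : prodFrom159 δ (n + 1 + 1) 0 = g * δ (n + 1) := by
      rw [prodFrom_succ_right159]
      simp [hg]
    rw [lintegral_pi_last582]
    have hmeas : Measurable (fun p : H × (Fin n → H) => ‖chain582 Φ δ n a p.1 p.2‖ₑ) := by
      have hcont : Continuous (fun p : H × (Fin n → H) => chain582 Φ δ n a p.1 p.2) :=
        (continuous_chain582 Φ (fun j => (hΦ j).1) δ n).comp
          (continuous_const.prodMk (continuous_fst.prodMk continuous_snd))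
      exact hcont.measurable.enorm
    have hmeas2 : Measurable (fun c : H => ‖Φ (n + 1) (c⁻¹ * δ (n + 1) * b)‖ₑ) := by
      have hcont : Continuous (fun c : H => Φ (n + 1) (c⁻¹ * δ (n + 1) * b)) :=
        (hΦ (n + 1)).1.comp ((continuous_inv.mul continuous_const).mul continuous_const)
      exact hcont.measurable.enorm
    have heq : (fun p : H × (Fin n → H) => ‖chain582 Φ δ (n + 1) a b (Fin.snoc p.2 p.1)‖ₑ)
        = fun p => ‖chain582 Φ δ n a p.1 p.2‖ₑ * ‖Φ (n + 1) (p.1⁻¹ * δ (n + 1) * b)‖ₑ := by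
      funext p
      rw [chain_snoc582, enorm_mul]
    have haem : AEMeasurable (fun p : H × (Fin n → H) =>
        ‖chain582 Φ δ n a p.1 p.2‖ₑ * ‖Φ (n + 1) (p.1⁻¹ * δ (n + 1) * b)‖ₑ)
        (μ.prod (Measure.pi fun _ : Fin n => μ)) :=
      (hmeas.mul (hmeas2.comp measurable_fst)).aemeasurable
    rw [heq, lintegral_prod _ haem]
    calc ∫⁻ c, ∫⁻ x, ‖chain582 Φ δ n a c x‖ₑ * ‖Φ (n + 1) (c⁻¹ * δ (n + 1) * b)‖ₑ
            ∂(Measure.pi fun _ : Fin n => μ) ∂μ
        = ∫⁻ c, (∫⁻ x, ‖chain582 Φ δ n a c x‖ₑ ∂(Measure.pi fun _ : Fin n => μ))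
            * ‖Φ (n + 1) (c⁻¹ * δ (n + 1) * b)‖ₑ ∂μ := by
          refine lintegral_congr fun c => ?_
          rw [lintegral_mul_const]
          exact hmeas.comp (measurable_const.prodMk measurable_id)
      _ ≤ ∫⁻ c, (M * m * (C * tsupport (Φ (n + 1))).indicator 1 (a⁻¹ * (g * δ (n + 1)) * b))
            * ((fun c : H => a⁻¹ * g * c) ⁻¹' C).indicator 1 c ∂μ := by
          refine lintegral_mono fun c => ?_
          refine le_trans (mul_le_mul' (hb a c) (hmb _)) ?_
          by_cases h1 : a⁻¹ * g * c ∈ C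
          · by_cases h2 : c⁻¹ * δ (n + 1) * b ∈ tsupport (Φ (n + 1))
            · have h3 : a⁻¹ * (g * δ (n + 1)) * b ∈ C * tsupport (Φ (n + 1)) := by
                refine ⟨a⁻¹ * g * c, h1, c⁻¹ * δ (n + 1) * b, h2, ?_⟩
                group
              have h4 : c ∈ (fun c : H => a⁻¹ * g * c) ⁻¹' C := h1
              rw [Set.indicator_of_mem h1, Set.indicator_of_mem h2, Set.indicator_of_mem h3,
                Set.indicator_of_mem h4]
              simp
            · rw [Set.indicator_of_notMem h2]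
              simp
          · rw [Set.indicator_of_notMem h1]
            simp
      _ = M * m * (C * tsupport (Φ (n + 1))).indicator 1 (a⁻¹ * (g * δ (n + 1)) * b)
            * μ ((fun c : H => a⁻¹ * g * c) ⁻¹' C) := by
          rw [lintegral_const_mul' _ _ (by
            refine ENNReal.mul_ne_top (ENNReal.mul_ne_top hM.ne hm.ne) ?_
            by_cases h3 : a⁻¹ * (g * δ (n + 1)) * b ∈ C * tsupport (Φ (n + 1))
            · rw [Set.indicator_of_mem h3]; simp
            · rw [Set.indicator_of_notMem h3]; simp)]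
          congr 1
          have hCm : MeasurableSet ((fun c : H => a⁻¹ * g * c) ⁻¹' C) :=
            (continuous_const.mul continuous_id).measurable hC.isClosed.measurableSet
          rw [lintegral_indicator_one hCm]
      _ = M * m * μ C * (C * tsupport (Φ (n + 1))).indicator 1
            (a⁻¹ * prodFrom159 δ (n + 1 + 1) 0 * b) := by
          rw [hgs, measure_preimage_mul]
          ring

/-- The chain is integrable in the inner variables. -/
theorem integrable_chain582 (Φ : ℕ → H → ℂ)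
    (hΦ : ∀ j, Continuous (Φ j) ∧ HasCompactSupport (Φ j)) (δ : ℕ → H) (n : ℕ) (a b : H) :
    Integrable (fun x : Fin n → H => chain582 Φ δ n a b x)
      (Measure.pi fun _ : Fin n => μ) := by
  obtain ⟨M, C, hM, -, hb⟩ := lintegral_chain_le582 μ Φ hΦ δ n
  refine ⟨(continuous_chain_right582 Φ (fun j => (hΦ j).1) δ n a b).aestronglyMeasurable, ?_⟩
  refine lt_of_le_of_lt (hb a b) (ENNReal.mul_lt_top hM ?_)
  by_cases h : a⁻¹ * prodFrom159 δ (n + 1) 0 * b ∈ C
  · rw [Set.indicator_of_mem h]; simp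
  · rw [Set.indicator_of_notMem h]; simp

/-- Transport of integrability, peeling the last variable. -/
theorem integrable_pi_last582 (n : ℕ) (f : (Fin (n + 1) → H) → ℂ)
    (hf : Integrable f (Measure.pi fun _ : Fin (n + 1) => μ)) :
    Integrable (fun p : H × (Fin n → H) => f (Fin.snoc p.2 p.1))
      (μ.prod (Measure.pi fun _ : Fin n => μ)) := by
  have hmp : MeasurePreserving (MeasurableEquiv.piFinSuccAbove (fun _ : Fin (n + 1) => H)
      (Fin.last n)) (Measure.pi fun _ : Fin (n + 1) => μ)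
      (μ.prod (Measure.pi fun _ : Fin n => μ)) :=
    measurePreserving_piFinSuccAbove (fun _ : Fin (n + 1) => μ) (Fin.last n)
  have h := (hmp.symm.integrable_comp_emb (MeasurableEquiv.measurableEmbedding _) (g := f)).2 hf
  refine h.congr (ae_of_all _ fun p => ?_)
  show f _ = f _
  congr 1
  simp only [MeasurableEquiv.piFinSuccAbove_symm_apply, Fin.insertNthEquiv_last]
  rfl

/-- **The inner integral is the iterated integral of helper159.** -/
theorem integral_chain582 (Φ : ℕ → H → ℂ)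
    (hΦ : ∀ j, Continuous (Φ j) ∧ HasCompactSupport (Φ j)) (δ : ℕ → H) (n : ℕ) (a b : H) :
    ∫ x, chain582 Φ δ n a b x ∂(Measure.pi fun _ : Fin n => μ) = iterL159 μ Φ δ n a b := by
  induction n generalizing a b with
  | zero =>
    show ∫ _x : Fin 0 → H, Φ 0 (a⁻¹ * δ 0 * b) ∂(Measure.pi fun _ : Fin 0 => μ)
      = Φ 0 (a⁻¹ * δ 0 * b)
    have huniv : (Measure.pi fun _ : Fin 0 => μ) Set.univ = 1 := by
      rw [Measure.pi_of_empty (fun _ : Fin 0 => μ) (fun i => Fin.elim0 i)]
      simp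
    rw [integral_const]
    simp [Measure.real, huniv]
  | succ n ih =>
    rw [integral_pi_last582]
    have hint := integrable_pi_last582 μ n _ (integrable_chain582 μ Φ hΦ δ (n + 1) a b)
    have heq : (fun p : H × (Fin n → H) => chain582 Φ δ (n + 1) a b (Fin.snoc p.2 p.1))
        = fun p => chain582 Φ δ n a p.1 p.2 * Φ (n + 1) (p.1⁻¹ * δ (n + 1) * b) := by
      funext p
      rw [chain_snoc582]
    rw [heq] at hint ⊢
    rw [integral_prod _ hint]
    show _ = ∫ x, iterL159 μ Φ δ n a x * Φ (n + 1) (x⁻¹ * δ (n + 1) * b) ∂μ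
    refine integral_congr_ae (ae_of_all _ fun c => ?_)
    show ∫ x, chain582 Φ δ n a c x * Φ (n + 1) (c⁻¹ * δ (n + 1) * b)
        ∂(Measure.pi fun _ : Fin n => μ) = _
    rw [integral_mul_const, ih]

/-- Transport of integrability, peeling the first variable. -/
theorem integrable_pi_first582 (n : ℕ) (f : H × (Fin n → H) → ℂ)
    (hf : Integrable f (μ.prod (Measure.pi fun _ : Fin n => μ))) :
    Integrable (fun y : Fin (n + 1) → H => f (y 0, Fin.tail y))
      (Measure.pi fun _ : Fin (n + 1) => μ) := by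
  have hmp : MeasurePreserving (MeasurableEquiv.piFinSuccAbove (fun _ : Fin (n + 1) => H)
      0) (Measure.pi fun _ : Fin (n + 1) => μ)
      (μ.prod (Measure.pi fun _ : Fin n => μ)) :=
    measurePreserving_piFinSuccAbove (fun _ : Fin (n + 1) => μ) 0
  have h := (hmp.integrable_comp_emb (MeasurableEquiv.measurableEmbedding _) (g := f)).2 hf
  refine h.congr (ae_of_all _ fun y => ?_)
  show f _ = f _
  congr 1

/-- **FUBINI FOR THE CYCLIC CHAIN INTEGRAL.**  See the header. -/
theorem cyclic_integral_eq582 (Φ : ℕ → H → ℂ)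
    (hΦ : ∀ j, Continuous (Φ j) ∧ HasCompactSupport (Φ j)) (δ : ℕ → H) (β : H → ℝ)
    (hβc : Continuous β) (hβ0 : ∀ x, 0 ≤ β x) (l : ℕ) (hl : 0 < l)
    (hfin : ∀ C : Set H, IsCompact C →
      ∫⁻ z in {z : H | z⁻¹ * prodFrom159 δ l 0 * z ∈ C}, ENNReal.ofReal (β z) ∂μ < ⊤) :
    ∫ y : Fin l → H,
        (∏ j : Fin l, Φ j.1 ((y j)⁻¹ * δ j.1 * y ⟨(j.1 + 1) % l, Nat.mod_lt _ j.pos⟩))
          * ((β (y ⟨0, hl⟩) : ℝ) : ℂ) ∂(Measure.pi fun _ : Fin l => μ)
      = ∫ z, convL159 μ Φ (l - 1) (z⁻¹ * prodFrom159 δ l 0 * z) * ((β z : ℝ) : ℂ) ∂μ := by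
  obtain ⟨n, rfl⟩ : ∃ n, l = n + 1 := ⟨l - 1, by omega⟩
  have hn : n + 1 - 1 = n := by omega
  rw [hn]
  set g := prodFrom159 δ (n + 1) 0 with hg
  -- the integrand
  have heq : (fun y : Fin (n + 1) → H =>
      (∏ j : Fin (n + 1), Φ j.1 ((y j)⁻¹ * δ j.1
          * y ⟨(j.1 + 1) % (n + 1), Nat.mod_lt _ j.pos⟩)) * ((β (y ⟨0, hl⟩) : ℝ) : ℂ))
      = fun y => chain582 Φ δ n (y 0) (y 0) (Fin.tail y) * ((β (y 0) : ℝ) : ℂ) := by
    funext y
    rw [← prod_cyclic582]
    rfl
  rw [heq, integral_pi_first582]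
  have heq2 : (fun p : H × (Fin n → H) =>
      chain582 Φ δ n ((Fin.cons p.1 p.2 : Fin (n + 1) → H) 0)
        ((Fin.cons p.1 p.2 : Fin (n + 1) → H) 0) (Fin.tail (Fin.cons p.1 p.2 : Fin (n + 1) → H))
        * ((β ((Fin.cons p.1 p.2 : Fin (n + 1) → H) 0) : ℝ) : ℂ))
      = fun p => chain582 Φ δ n p.1 p.1 p.2 * ((β p.1 : ℝ) : ℂ) := by
    funext p
    rw [Fin.cons_zero, Fin.tail_cons]
  rw [heq2]
  -- integrability
  obtain ⟨M, C, hM, hC, hb⟩ := lintegral_chain_le582 μ Φ hΦ δ n
  have hcont : Continuous (fun p : H × (Fin n → H) =>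
      chain582 Φ δ n p.1 p.1 p.2 * ((β p.1 : ℝ) : ℂ)) := by
    have h1 : Continuous (fun p : H × (Fin n → H) => chain582 Φ δ n p.1 p.1 p.2) :=
      (continuous_chain582 Φ (fun j => (hΦ j).1) δ n).comp
        (continuous_fst.prodMk (continuous_fst.prodMk continuous_snd))
    exact h1.mul (Complex.continuous_ofReal.comp (hβc.comp continuous_fst))
  have hmeas : Measurable (fun p : H × (Fin n → H) => ‖chain582 Φ δ n p.1 p.1 p.2‖ₑ) := by
    have h1 : Continuous (fun p : H × (Fin n → H) => chain582 Φ δ n p.1 p.1 p.2) :=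
      (continuous_chain582 Φ (fun j => (hΦ j).1) δ n).comp
        (continuous_fst.prodMk (continuous_fst.prodMk continuous_snd))
    exact h1.measurable.enorm
  have hint : Integrable (fun p : H × (Fin n → H) =>
      chain582 Φ δ n p.1 p.1 p.2 * ((β p.1 : ℝ) : ℂ))
      (μ.prod (Measure.pi fun _ : Fin n => μ)) := by
    refine ⟨hcont.aestronglyMeasurable, ?_⟩
    show ∫⁻ p : H × (Fin n → H), ‖chain582 Φ δ n p.1 p.1 p.2 * ((β p.1 : ℝ) : ℂ)‖ₑ
      ∂(μ.prod (Measure.pi fun _ : Fin n => μ)) < ⊤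
    rw [lintegral_prod _ hcont.measurable.enorm.aemeasurable]
    have hE : MeasurableSet {z : H | z⁻¹ * g * z ∈ C} := by
      have hc : Continuous (fun z : H => z⁻¹ * g * z) :=
        (continuous_inv.mul continuous_const).mul continuous_id
      exact hc.measurable hC.isClosed.measurableSet
    calc ∫⁻ z, ∫⁻ x, ‖chain582 Φ δ n z z x * ((β z : ℝ) : ℂ)‖ₑ
            ∂(Measure.pi fun _ : Fin n => μ) ∂μ
        = ∫⁻ z, (∫⁻ x, ‖chain582 Φ δ n z z x‖ₑ ∂(Measure.pi fun _ : Fin n => μ))
            * ENNReal.ofReal (β z) ∂μ := by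
          refine lintegral_congr fun z => ?_
          have h2 : ∀ x : Fin n → H, ‖chain582 Φ δ n z z x * ((β z : ℝ) : ℂ)‖ₑ
              = ‖chain582 Φ δ n z z x‖ₑ * ENNReal.ofReal (β z) := by
            intro x
            rw [enorm_mul]
            congr 1
            rw [← ofReal_norm, Complex.norm_real, Real.norm_of_nonneg (hβ0 z)]
          simp only [h2]
          rw [lintegral_mul_const]
          exact (continuous_chain_right582 Φ (fun j => (hΦ j).1) δ n z z).measurable.enorm
      _ ≤ ∫⁻ z, M * ({z : H | z⁻¹ * g * z ∈ C}.indicator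
            (fun z => ENNReal.ofReal (β z)) z) ∂μ := by
          refine lintegral_mono fun z => ?_
          refine le_trans (mul_le_mul' (hb z z) le_rfl) ?_
          by_cases h : z⁻¹ * g * z ∈ C
          · have h' : z ∈ {z : H | z⁻¹ * g * z ∈ C} := h
            rw [Set.indicator_of_mem h, Set.indicator_of_mem h']
            simp
          · rw [Set.indicator_of_notMem h]
            simp
      _ = M * ∫⁻ z in {z : H | z⁻¹ * g * z ∈ C}, ENNReal.ofReal (β z) ∂μ := by
          rw [lintegral_const_mul' _ _ hM.ne, lintegral_indicator hE]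
      _ < ⊤ := ENNReal.mul_lt_top hM (hfin C hC)
  rw [integral_prod _ hint]
  refine integral_congr_ae (ae_of_all _ fun z => ?_)
  show ∫ x, chain582 Φ δ n z z x * ((β z : ℝ) : ℂ) ∂(Measure.pi fun _ : Fin n => μ) = _
  rw [integral_mul_const, integral_chain582 μ Φ hΦ, iterL_eq159]

end Meas

end Fermat.Agent.LT.T7.H582

end
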