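import Mathlib

/-!
# Row LT, tower T7, leaf C2.7.13.4 `LocEqArchC340` (helper582, registry row 2623), OFF-MAIN

PART 2 (Mathlib only): **a cut-off function is integrable on `T · Ω`, `Ω` compact**.

`H` a locally compact second countable group with a Haar measure `μ`, `T` a closed subgroup with
a Haar measure `μT`, `β ≥ 0` measurable with `∫_T β(t x) dμT(t) = 1` for every `x`.  If every
element of the measurable set `E` is of the form `t ω` with `t ∈ T`, `ω ∈ Ω` (`Ω` compact), then
`∫_E β dμ < ∞`.  (Tonelli: for a compact neighbourhood `V` of `1` and `A = V Ω`,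
`μT(W) 1_E(z) ≤ μT {t : t⁻¹ z ∈ A}` with `W = {s ∈ T : s⁻¹ ∈ V}`, and
`∫ β(z) μT{t : t⁻¹ z ∈ A} dμ(z) = ∫_A ∫_T β(t z) dμT(t) dμ(z) = μ(A)`.)

Theorems only (new names, suffix `582`).
-/

set_option autoImplicit false

open MeasureTheory
open scoped Pointwise Topology

noncomputable section

namespace Fermat.Agent.LT.T7.H582

variable {H : Type} [Group H] [TopologicalSpace H] [IsTopologicalGroup H]
  [LocallyCompactSpace H] [T2Space H] [SecondCountableTopology H] [MeasurableSpace H]
  [BorelSpace H]

theorem lintegral_cut_lt_top582 (μ : Measure H) [μ.IsHaarMeasure]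
    (T : Subgroup H) (hT : IsClosed (T : Set H)) (μT : @Measure T (borel _))
    (hμT : @Measure.IsHaarMeasure _ _ _ (borel _) μT)
    (β : H → ℝ) (hβm : Measurable β) (hβ0 : ∀ x, 0 ≤ β x)
    (hβ1 : ∀ x : H, @integral _ _ _ _ (borel _) μT (fun t : T => β ((t : H) * x)) = 1)
    (Ω : Set H) (hΩ : IsCompact Ω) (E : Set H) (hE : MeasurableSet E)
    (hEΩ : ∀ z ∈ E, ∃ t : T, ((t : H))⁻¹ * z ∈ Ω) :
    ∫⁻ z in E, ENNReal.ofReal (β z) ∂μ < ⊤ := by
  letI : MeasurableSpace T := borel _
  haveI : BorelSpace T := ⟨rfl⟩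
  haveI := hμT
  haveI : LocallyCompactSpace T := hT.isClosedEmbedding_subtypeVal.locallyCompactSpace
  haveI : SecondCountableTopology T :=
    Topology.IsEmbedding.subtypeVal.secondCountableTopology
  haveI : SigmaCompactSpace T := inferInstance
  haveI : SigmaFinite μT := inferInstance
  -- a compact neighbourhood of `1`
  obtain ⟨V, hVc, hV1⟩ := exists_compact_mem_nhds (1 : H)
  set A : Set H := V * Ω with hA
  have hAc : IsCompact A := hVc.mul hΩ
  have hAm : MeasurableSet A := hAc.isClosed.measurableSet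
  set W : Set T := {s : T | ((s : H))⁻¹ ∈ V} with hW
  have hWn : W ∈ 𝓝 (1 : T) := by
    have hc : Continuous (fun s : T => ((s : H))⁻¹) := continuous_subtype_val.inv
    have h1 : (fun s : T => ((s : H))⁻¹) 1 = 1 := by simp
    have h2 : Filter.Tendsto (fun s : T => ((s : H))⁻¹) (𝓝 (1 : T)) (𝓝 (1 : H)) := by
      simpa using hc.tendsto (1 : T)
    exact h2 hV1
  have hWpos : 0 < μT W := Measure.measure_pos_of_mem_nhds μT hWn
  -- the pointwise bound
  have hcontm : Continuous (fun p : H × T => ((p.2 : H))⁻¹ * p.1) :=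
    (continuous_subtype_val.comp continuous_snd).inv.mul continuous_fst
  have hbound : ∀ z ∈ E, μT W ≤ μT {t : T | ((t : H))⁻¹ * z ∈ A} := by
    intro z hz
    obtain ⟨t₀, ht₀⟩ := hEΩ z hz
    have hsub : (fun s : T => t₀⁻¹ * s) ⁻¹' W ⊆ {t : T | ((t : H))⁻¹ * z ∈ A} := by
      intro t ht
      have ht' : (((t₀⁻¹ * t : T) : H))⁻¹ ∈ V := ht
      refine ⟨(((t₀⁻¹ * t : T) : H))⁻¹, ht', ((t₀ : H))⁻¹ * z, ht₀, ?_⟩
      show (((t₀⁻¹ * t : T) : H))⁻¹ * (((t₀ : H))⁻¹ * z) = ((t : H))⁻¹ * z
      push_cast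
      group
    calc μT W = μT ((fun s : T => t₀⁻¹ * s) ⁻¹' W) := (measure_preimage_mul μT t₀⁻¹ W).symm
      _ ≤ _ := measure_mono hsub
  -- Tonelli
  have hF1 : Measurable (fun p : H × T =>
      ENNReal.ofReal (β p.1) * A.indicator (1 : H → ENNReal) (((p.2 : H))⁻¹ * p.1)) := by
    refine (ENNReal.measurable_ofReal.comp (hβm.comp measurable_fst)).mul ?_
    exact (measurable_one.indicator hAm).comp hcontm.measurable
  have hcontm2 : Continuous (fun p : H × T => (p.2 : H) * p.1) :=
    (continuous_subtype_val.comp continuous_snd).mul continuous_fst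
  have hF2 : Measurable (fun p : H × T =>
      ENNReal.ofReal (β ((p.2 : H) * p.1)) * A.indicator (1 : H → ENNReal) p.1) := by
    refine (ENNReal.measurable_ofReal.comp (hβm.comp hcontm2.measurable)).mul ?_
    exact (measurable_one.indicator hAm).comp measurable_fst
  have hone : ∀ z : H, ∫⁻ t : T, ENNReal.ofReal (β ((t : H) * z)) ∂μT = 1 := by
    intro z
    have hint : Integrable (fun t : T => β ((t : H) * z)) μT := by
      by_contra hni
      have := integral_undef hni
      rw [hβ1 z] at this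
      exact one_ne_zero this
    rw [← ofReal_integral_eq_lintegral_ofReal hint (ae_of_all _ fun t => hβ0 _), hβ1 z]
    simp
  have hkey : ∫⁻ z, ENNReal.ofReal (β z) * μT {t : T | ((t : H))⁻¹ * z ∈ A} ∂μ = μ A := by
    have h1 : ∀ z : H, ENNReal.ofReal (β z) * μT {t : T | ((t : H))⁻¹ * z ∈ A}
        = ∫⁻ t : T, ENNReal.ofReal (β z)
            * A.indicator (1 : H → ENNReal) (((t : H))⁻¹ * z) ∂μT := by
      intro z
      have hm : MeasurableSet {t : T | ((t : H))⁻¹ * z ∈ A} := by
        have hc : Continuous (fun t : T => ((t : H))⁻¹ * z) :=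
          continuous_subtype_val.inv.mul continuous_const
        exact hc.measurable hAm
      rw [lintegral_const_mul' _ _ ENNReal.ofReal_ne_top]
      congr 1
      rw [← lintegral_indicator_one hm]
      rfl
    simp only [h1]
    rw [lintegral_lintegral_swap hF1.aemeasurable]
    have h2 : ∀ t : T, ∫⁻ z, ENNReal.ofReal (β z)
          * A.indicator (1 : H → ENNReal) (((t : H))⁻¹ * z) ∂μ
        = ∫⁻ z, ENNReal.ofReal (β ((t : H) * z)) * A.indicator (1 : H → ENNReal) z ∂μ := by
      intro t
      have := lintegral_mul_left_eq_self (μ := μ) (fun z => ENNReal.ofReal (β z)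
          * A.indicator (1 : H → ENNReal) (((t : H))⁻¹ * z)) (t : H)
      rw [← this]
      refine lintegral_congr fun z => ?_
      show ENNReal.ofReal (β ((t : H) * z)) * A.indicator 1 (((t : H))⁻¹ * ((t : H) * z)) = _
      rw [inv_mul_cancel_left]
    simp only [h2]
    rw [lintegral_lintegral_swap (f := fun (t : T) (z : H) =>
      ENNReal.ofReal (β ((t : H) * z)) * A.indicator (1 : H → ENNReal) z)
      (hF2.comp measurable_swap).aemeasurable]
    have h3 : ∀ z : H, ∫⁻ t : T, ENNReal.ofReal (β ((t : H) * z))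
          * A.indicator (1 : H → ENNReal) z ∂μT = A.indicator (1 : H → ENNReal) z := by
      intro z
      by_cases hz : z ∈ A
      · rw [Set.indicator_of_mem hz]
        simp [hone z]
      · rw [Set.indicator_of_notMem hz]
        simp
    simp only [h3]
    rw [lintegral_indicator_one hAm]
  have hle : μT W * ∫⁻ z in E, ENNReal.ofReal (β z) ∂μ ≤ μ A := by
    have hmi : Measurable (E.indicator fun z : H => ENNReal.ofReal (β z)) :=
      (ENNReal.measurable_ofReal.comp hβm).indicator hE
    rw [← hkey, ← lintegral_indicator hE, ← lintegral_const_mul _ hmi]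
    refine lintegral_mono fun z => ?_
    by_cases hz : z ∈ E
    · rw [Set.indicator_of_mem hz, mul_comm]
      exact mul_le_mul' le_rfl (hbound z hz)
    · rw [Set.indicator_of_notMem hz]
      simp
  by_contra hcon
  have htop : ∫⁻ z in E, ENNReal.ofReal (β z) ∂μ = ⊤ := not_lt_top_iff.mp hcon
  rw [htop, ENNReal.mul_top hWpos.ne'] at hle
  exact absurd (lt_of_le_of_lt hle hAc.measure_lt_top) (lt_irrefl _)

end Fermat.Agent.LT.T7.H582

end
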