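import Mathlib
import Fermat.Agent.LT.T7.H340.FactUpSpec
import Fermat.Agent.LT.T7.H582.ChainFubini
import Fermat.Agent.LT.T7.H582.CutFinite
import Fermat.Agent.LT.T7.H582.ArchOrbit
import Fermat.Agent.LT.T7.H582.ArchAlg

/-!
# Row LT, tower T7, leaf C2.7.13.4 `LocEqArchC340` (helper582, registry row 2623), OFF-MAIN

**CLOSED, UNCONDITIONAL**: `locEqArchC582 : H340.LocEqArchC340 K K'` (VERBATIM, helper340
`FactUpSpec.lean` sha256 786596dd).

Proof.  (algebra, `ArchAlg.lean`) in the `K`-coordinates the product of the components of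
`δ r'^j` at the places over `v` is the component of `γ r^j` at `v`.  (integrability,
`ArchOrbit.lean`, `CutFinite.lean`) the orbit of the regular element `γ_v` of `GL₂(ℂ)` is closed,
so the cut-off function is integrable on the sets `{z : z⁻¹ γ_v r^j z ∈ C}`, `C` compact.
(Fubini, `ChainFubini.lean`, helper159 `iterL_eq159`) the cyclic chain integral is the cut-off
integral of the iterated convolution.  (`LocHyp305.arch`) the iterated convolution is `F v`.
-/

set_option autoImplicit false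

open AutomorphicForm IsDedekindDomain NumberField MeasureTheory
open scoped ComplexConjugate Pointwise

noncomputable section

namespace Fermat.Agent.LT.T7.H582

open Fermat.Agent.LT.H556 Fermat.Agent.LT.H556.A0 Fermat.Agent.LT.T7 Fermat.Agent.LT.T7.H305
open Fermat.Agent.LT.T7.H340 Fermat.Agent.LT.T7.H159

theorem secondCountable_GL2C582 : SecondCountableTopology (GL (Fin 2) ℂ) := by
  have h1 : SecondCountableTopology (Matrix (Fin 2) (Fin 2) ℂ) :=
    inferInstanceAs (SecondCountableTopology (Fin 2 → Fin 2 → ℂ))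
  have : SecondCountableTopology (Matrix (Fin 2) (Fin 2) ℂ)ᵐᵒᵖ :=
    MulOpposite.opHomeomorph.symm.secondCountableTopology
  exact (Units.isEmbedding_embedProduct (M := Matrix (Fin 2) (Fin 2) ℂ)).secondCountableTopology

theorem locallyCompact_GL2C582 : LocallyCompactSpace (GL (Fin 2) ℂ) := by
  have h1 : LocallyCompactSpace (Matrix (Fin 2) (Fin 2) ℂ) :=
    inferInstanceAs (LocallyCompactSpace (Fin 2 → Fin 2 → ℂ))
  exact (Units.isClosedEmbedding_embedProduct (α := Matrix (Fin 2) (Fin 2) ℂ)).locallyCompactSpace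

/-- The two forms of the iterated convolution agree. -/
theorem convL_eq582 (μc : @Measure (GL (Fin 2) ℂ) (borel _)) (Φ : ℕ → GL (Fin 2) ℂ → ℂ)
    (n : ℕ) : convL305 μc Φ n = @convL159 _ _ (borel _) μc Φ n := by
  induction n with
  | zero => rfl
  | succ n ih =>
    show @T6.convInt _ _ (borel _) μc (convL305 μc Φ n) (Φ (n + 1))
      = @T6.convInt _ _ (borel _) μc (@convL159 _ _ (borel _) μc Φ n) (Φ (n + 1))
    rw [ih]

section OneField

variable {K : Type} [Field K] [NumberField K]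

/-- The image of an elliptic element at an infinite place is regular. -/
theorem arch_reg582 (w : InfinitePlace K) (γ : GL (Fin 2) K) (hell : T6.IsEll γ) :
    ((archG305 w γ : GL (Fin 2) ℂ) : Matrix (Fin 2) (Fin 2) ℂ).trace ^ 2
      - 4 * ((archG305 w γ : GL (Fin 2) ℂ) : Matrix (Fin 2) (Fin 2) ℂ).det ≠ 0 := by
  set e : K →+* ℂ := (T5.infHom w).comp (algebraMap K (Adl K)) with he
  have hval : ((archG305 w γ : GL (Fin 2) ℂ) : Matrix (Fin 2) (Fin 2) ℂ)
      = e.mapMatrix (γ : Matrix (Fin 2) (Fin 2) K) := rfl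
  have hdisc : IsUnit ((γ : Matrix (Fin 2) (Fin 2) K).trace ^ 2
      - 4 * (γ : Matrix (Fin 2) (Fin 2) K).det) := hell.1
  have h0 : (γ : Matrix (Fin 2) (Fin 2) K).trace ^ 2
      - 4 * (γ : Matrix (Fin 2) (Fin 2) K).det ≠ 0 := hdisc.ne_zero
  have htr : (e.mapMatrix (γ : Matrix (Fin 2) (Fin 2) K)).trace
      = e (γ : Matrix (Fin 2) (Fin 2) K).trace := by
    simp [Matrix.trace_fin_two]
  rw [hval, ← RingHom.map_det, htr]
  intro h
  apply h0
  apply e.injective
  rw [map_zero, map_sub, map_pow, map_mul]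
  have h4 : e 4 = 4 := map_ofNat e 4
  rw [h4]
  exact h

end OneField

section TwoFields

variable (K K' : Type) [Field K] [NumberField K] [Field K'] [NumberField K'] [Algebra K K']

/-- **LEAF C2.7.13.4 = LOC-EQ-ARCH, CLOSED.** -/
theorem locEqArchC582 : LocEqArchC340 K K' := by
  intro D hD hcyc _hl2 htc ι hι μc hμc S n m φ₀ Φ f₀ F hloc δ γ hell hnorm L hL w j J hJ
  obtain ⟨hl, w', d, hover, hsucc, hinj, hd, hdι, rfl⟩ := hJ
  letI : MeasurableSpace (GL (Fin 2) ℂ) := borel _
  haveI : BorelSpace (GL (Fin 2) ℂ) := ⟨rfl⟩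
  haveI : SecondCountableTopology (GL (Fin 2) ℂ) := secondCountable_GL2C582
  haveI : LocallyCompactSpace (GL (Fin 2) ℂ) := locallyCompact_GL2C582
  haveI : μc.IsHaarMeasure := hμc
  obtain ⟨hβc, hβ0, hβ1⟩ := hL.cutc w
  -- the algebra
  set δ' : ℕ → GL (Fin 2) ℂ := fun a => Matrix.GeneralLinearGroup.map (d a)
    (infGL305 (w' a) (T5.ratG δ * D.R'.r ^ j)) with hδ'
  have hprod : prodFrom159 δ' D.l 0 = infGL305 w (T5.ratG γ * D.R.r ^ j) :=
    prod_arch582 D ι w w' d hD hcyc htc hι hsucc hd hdι δ γ hnorm j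
  -- the ray is central
  set γw : GL (Fin 2) ℂ := archG305 w γ with hγw
  set s : GL (Fin 2) ℂ := (infGL305 w D.R.r) ^ j with hs
  have hgs : infGL305 w (T5.ratG γ * D.R.r ^ j) = γw * s := by
    rw [map_mul, map_zpow]
    rfl
  have hsc : ∀ x : GL (Fin 2) ℂ, s * x = x * s := by
    intro x
    obtain ⟨-, t, -, -, ht⟩ := hD.frame.ray
    have hc : Commute (infGL305 w D.R.r) x :=
      diag_central582 (t : ℂ) _ x (ray_val582 D.R.r t ht w)
    exact (hc.zpow_left j).eq
  -- integrability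
  have hT : IsClosed ((cent305 γw : Subgroup (GL (Fin 2) ℂ)) : Set (GL (Fin 2) ℂ)) := by
    have hc : Continuous (fun x : GL (Fin 2) ℂ => x⁻¹ * γw * x) :=
      (continuous_inv.mul continuous_const).mul continuous_id
    exact isClosed_eq hc continuous_const
  have hfin : ∀ C : Set (GL (Fin 2) ℂ), IsCompact C →
      ∫⁻ z in {z : GL (Fin 2) ℂ | z⁻¹ * prodFrom159 δ' D.l 0 * z ∈ C},
        ENNReal.ofReal (L.βc w z) ∂μc < ⊤ := by
    intro C hC
    rw [hprod, hgs]
    have hC2 : IsCompact ((fun x : GL (Fin 2) ℂ => x * s⁻¹) '' C) :=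
      hC.image (continuous_id.mul continuous_const)
    obtain ⟨Ω, hΩ, hcov⟩ := orbit_cover582 γw (arch_reg582 w γ hell) _ hC2
    have hE : MeasurableSet {z : GL (Fin 2) ℂ | z⁻¹ * (γw * s) * z ∈ C} := by
      have hc : Continuous (fun z : GL (Fin 2) ℂ => z⁻¹ * (γw * s) * z) :=
        (continuous_inv.mul continuous_const).mul continuous_id
      exact hc.measurable hC.isClosed.measurableSet
    refine lintegral_cut_lt_top582 μc (cent305 γw) hT (L.μtc w) (hL.torc w) (L.βc w)
      hβc.measurable hβ0 hβ1 Ω hΩ _ hE ?_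
    intro z hz
    have hz2 : z⁻¹ * γw * z ∈ (fun x : GL (Fin 2) ℂ => x * s⁻¹) '' C := by
      refine ⟨z⁻¹ * (γw * s) * z, hz, ?_⟩
      show z⁻¹ * (γw * s) * z * s⁻¹ = z⁻¹ * γw * z
      have h1 : z⁻¹ * (γw * s) * z = z⁻¹ * γw * z * s := by
        calc z⁻¹ * (γw * s) * z = z⁻¹ * γw * (s * z) := by simp only [mul_assoc]
          _ = z⁻¹ * γw * (z * s) := by rw [hsc z]
          _ = z⁻¹ * γw * z * s := by simp only [mul_assoc]
      rw [h1, mul_inv_cancel_right]
    obtain ⟨t, ht1, ht2⟩ := hcov z hz2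
    exact ⟨⟨t, ht1⟩, ht2⟩
  -- Fubini
  have hΦ : ∀ a : ℕ, Continuous (Φ (w' a)) ∧ HasCompactSupport (Φ (w' a)) :=
    fun a => ⟨(hloc.arch_up (w' a)).1, (hloc.arch_up (w' a)).2.1⟩
  have hF : F w = convL305 μc (fun a => Φ (w' a)) (D.l - 1) := hloc.arch w w' hover hinj
  have hmain := cyclic_integral_eq582 μc (fun a => Φ (w' a)) hΦ δ' (L.βc w) hβc hβ0 D.l hl hfin
  rw [hprod, ← convL_eq582 μc (fun a => Φ (w' a)) (D.l - 1), ← hF] at hmain
  exact hmain

end TwoFields

end Fermat.Agent.LT.T7.H582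

end
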